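/-
GATE-B / B10' with a NON-UNIT killer (helper78), file 1: **the S32 subquotient theorem,
HECKE-EQUIVARIANT form**.

`GH/S32/Subquot.isSubquotPow_of_gma` (helper93) and `GH/S32/LocTop.isSubquotPow_of_hecke` (helper47)
produce `(C², ρ)` as a `G`-equivariant quotient of a `G`-stable subgroup of a finite power of `X`.
The construction (`X₁ = range colMap`, `f = χ ∘ eqv⁻¹`) is linear over the local Hecke ring, so the
subquotient is equivariant for the Hecke operators as well.  Here this is recorded by enlarging the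
index type of `IsSubquotPow` (which is an arbitrary type) to `G ⊕ R` resp. `G ⊕ 𝒯`:

* `isSubquotPow_comapIndex` : change of index type;
* `isSubquotPow_of_gma_ext`   : `G ⊕ R`, `r` acting by `r • ·` on `X` and by `f r • ·` on `C²`;
* `isSubquotPow_of_hecke_ext` : `G ⊕ 𝒯`, `t` acting by `hecke t` on `X` and by `π t • ·` on `C²`.

The proofs are those of helper93/helper47 with the last step (`isSubquotPow_of_matrix`, which is
generic in the index type) applied to the enlarged family.
-/
import Fermat.Agent.GH.S32.LocTop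

set_option autoImplicit false

namespace Fermat.Agent.GB.B10N.SubquotExt

open Function MonoidAlgebra Fermat.Agent.GH.S32 Fermat.Agent.GH.S32.BlrRing
  Fermat.Agent.GH.S32.GmaRes Fermat.Agent.GH.S32.GmaInst Fermat.Agent.GH.S32.MatMod
  Fermat.Agent.GH.S32.Subquot Fermat.Agent.GH.S32.Loc

/-- **change of index type** for `IsSubquotPow`. -/
theorem isSubquotPow_comapIndex {G G' M M' : Type*} [AddCommGroup M] [AddCommGroup M']
    {act : G → M → M} {act' : G → M' → M'} (φ : G' → G) (h : IsSubquotPow act act') :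
    IsSubquotPow (fun g' => act (φ g')) (fun g' => act' (φ g')) := by
  obtain ⟨r, X₁, f, hf, hst, heq⟩ := h
  exact ⟨r, X₁, f, hf, fun g x hx => hst (φ g) x hx, fun g x => heq (φ g) x⟩

section Main

variable {R : Type*} [CommRing R] [IsLocalRing R] [IsArtinianRing R]
variable {X : Type*} [AddCommGroup X] [Module R X] [Finite X]
variable {G : Type*} [Group G]
variable {C : Type*} [CommRing C] [IsLocalRing C]

/-- **INTERFACE-GMA (SUBQUOT), equivariant for the scalars.** -/
theorem isSubquotPow_of_gma_ext (act : G →* Module.End R X) (δ : G →* Rˣ)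
    (h2 : IsUnit (2 : R))
    (hfaith : ∀ r : R, (∀ x : X, r • x = 0) → r = 0)
    (hsc : ∀ g, ∃ t : R, act g + ((δ g : Rˣ) : R) • act g⁻¹ = t • (1 : Module.End R X))
    (f : R →+* C) (hf : Function.Surjective f)
    (ρ : G →* Matrix (Fin 2) (Fin 2) C) (hspan : Submodule.span C (Set.range ρ) = ⊤)
    (htr : ∀ g t, act g + ((δ g : Rˣ) : R) • act g⁻¹ = t • (1 : Module.End R X) →
      Matrix.trace (ρ g) = f t) :
    IsSubquotPow
      (Sum.elim (fun (g : G) (x : X) => act g x) (fun (r : R) (x : X) => r • x))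
      (Sum.elim (fun (g : G) (v : Fin 2 → C) => (ρ g).mulVec v)
        (fun (r : R) (v : Fin 2 → C) => f r • v)) := by
  classical
  choose t ht using hsc
  -- the residue field of `C` as an `R`-algebra
  let algRk : Algebra R (IsLocalRing.ResidueField C) :=
    ((IsLocalRing.residue C).comp f).toAlgebra
  have halg : ∀ r : R, algebraMap R (IsLocalRing.ResidueField C) r =
      IsLocalRing.residue C (f r) := fun r => rfl
  have hres : Function.Surjective (algebraMap R (IsLocalRing.ResidueField C)) :=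
    (IsLocalRing.residue_surjective).comp hf
  -- the residual representation
  let ρbar : G →* Matrix (Fin 2) (Fin 2) (IsLocalRing.ResidueField C) :=
    (((IsLocalRing.residue C).mapMatrix :
      Matrix (Fin 2) (Fin 2) C →+* Matrix (Fin 2) (Fin 2) (IsLocalRing.ResidueField C)) :
      Matrix (Fin 2) (Fin 2) C →* Matrix (Fin 2) (Fin 2) (IsLocalRing.ResidueField C)).comp ρ
  have hρbar : ∀ g, ρbar g = (ρ g).map (IsLocalRing.residue C) := fun g => rfl
  have hsmul : ∀ (r : R) (m : Matrix (Fin 2) (Fin 2) C),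
      (f r • m).map (IsLocalRing.residue C) = r • m.map (IsLocalRing.residue C) := by
    intro r m
    ext i j
    rw [Matrix.map_apply, Matrix.smul_apply, Matrix.smul_apply, Matrix.map_apply, smul_eq_mul,
      map_mul, Algebra.smul_def, halg]
  have hspanbar : Submodule.span R (Set.range ρbar) = ⊤ := by
    rw [eq_top_iff]
    rintro mbar -
    obtain ⟨m, rfl⟩ : ∃ m : Matrix (Fin 2) (Fin 2) C,
        m.map (IsLocalRing.residue C) = mbar := by
      choose l hl using IsLocalRing.residue_surjective (R := C)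
      exact ⟨mbar.map l, by ext i j; simp [hl]⟩
    have hm : m ∈ Submodule.span C (Set.range ρ) := by rw [hspan]; trivial
    induction hm using Submodule.span_induction with
    | mem x hx =>
      obtain ⟨g, rfl⟩ := hx
      exact Submodule.subset_span ⟨g, rfl⟩
    | zero =>
      have : (0 : Matrix (Fin 2) (Fin 2) C).map (IsLocalRing.residue C) = 0 := by
        ext i j; simp
      rw [this]
      exact Submodule.zero_mem _
    | add x y _ _ hx hy =>
      have : (x + y).map (IsLocalRing.residue C) =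
          x.map (IsLocalRing.residue C) + y.map (IsLocalRing.residue C) := by
        ext i j; simp
      rw [this]
      exact Submodule.add_mem _ hx hy
    | smul c x _ hx =>
      obtain ⟨r, rfl⟩ := hf c
      rw [hsmul]
      exact Submodule.smul_mem _ _ hx
  have htrbar : ∀ g, algebraMap R (IsLocalRing.ResidueField C) (t g) =
      Matrix.trace (ρbar g) := by
    intro g
    rw [halg, ← htr g (t g) (ht g), hρbar]
    simp [Matrix.trace, Fin.sum_univ_two]
  have H : Hyp act δ t ρbar := ⟨h2, hfaith, ht, hspanbar, htrbar⟩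
  have : Nontrivial X := by
    by_contra hne
    rw [not_nontrivial_iff_subsingleton] at hne
    exact one_ne_zero (hfaith 1 (fun x => Subsingleton.elim _ _))
  have : Module.Finite R X := Module.Finite.of_finite
  obtain ⟨ι, τ, π, -, hιmul, hιι, hτ, hπsurj, hπnil, hinj, -, -, -⟩ := H.core_hyps
  obtain ⟨Φ, -, -⟩ :=
    GmaBridge.exists_algEquiv hres h2 hinj ι hιmul hιι τ hτ π hπsurj hπnil
  let Ψ : Matrix (Fin 2) (Fin 2) R →ₐ[R] Module.End R X :=
    (B act).val.comp (Φ : Matrix (Fin 2) (Fin 2) R →ₐ[R] B act)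
  have hΨinj : Function.Injective Ψ := Subtype.val_injective.comp Φ.injective
  let ρR : G →* Matrix (Fin 2) (Fin 2) R :=
    ((Φ.symm : B act →ₐ[R] Matrix (Fin 2) (Fin 2) R) : B act →* Matrix (Fin 2) (Fin 2) R).comp
      (((q act : MonoidAlgebra R G →ₐ[R] B act) : MonoidAlgebra R G →* B act).comp (of R G))
  have hΨρ : ∀ g, Ψ (ρR g) = act g := by
    intro g
    show ((Φ (Φ.symm (q act (of R G g))) : B act) : Module.End R X) = act g
    rw [AlgEquiv.apply_symm_apply, coe_q, actA_of]
  -- the relation in `M₂(R)`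
  have hrelR : ∀ g, ρR g + ((δ g : Rˣ) : R) • ρR g⁻¹ =
      t g • (1 : Matrix (Fin 2) (Fin 2) R) := by
    intro g
    apply hΨinj
    rw [map_add, map_smul, hΨρ, hΨρ, ht g, map_smul, map_one]
  -- reduce along `f`
  let ρ' : G →* Matrix (Fin 2) (Fin 2) C :=
    ((f.mapMatrix : Matrix (Fin 2) (Fin 2) R →+* Matrix (Fin 2) (Fin 2) C) :
      Matrix (Fin 2) (Fin 2) R →* Matrix (Fin 2) (Fin 2) C).comp ρR
  have hρ' : ∀ g, ρ' g = (ρR g).map f := fun g => rfl
  let δC : G →* Cˣ := (Units.map (f : R →* C)).comp δ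
  have hδC : ∀ g, ((δC g : Cˣ) : C) = f ((δ g : Rˣ) : R) := fun g => rfl
  have hrelC : ∀ g, ρ' g + ((δC g : Cˣ) : C) • ρ' g⁻¹ =
      Matrix.trace (ρ g) • (1 : Matrix (Fin 2) (Fin 2) C) := by
    intro g
    have h : (ρR g + ((δ g : Rˣ) : R) • ρR g⁻¹).map f =
        (t g • (1 : Matrix (Fin 2) (Fin 2) R)).map f :=
      congrArg (fun m : Matrix (Fin 2) (Fin 2) R => m.map f) (hrelR g)
    rw [htr g (t g) (ht g), hρ', hρ', hδC]
    ext i j
    have hij := congrFun (congrFun h i) j
    simp only [Matrix.map_apply, Matrix.add_apply, Matrix.smul_apply, smul_eq_mul, map_add,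
      map_mul, Matrix.one_apply] at hij ⊢
    rw [hij]
    split_ifs <;> simp
  -- the linear action on `C²`
  let act' : G →* Module.End C (Fin 2 → C) :=
    ((Matrix.toLinAlgEquiv' : Matrix (Fin 2) (Fin 2) C ≃ₐ[C] Module.End C (Fin 2 → C)) :
      Matrix (Fin 2) (Fin 2) C →* Module.End C (Fin 2 → C)).comp ρ'
  have hact' : ∀ g v, act' g v = (ρ' g).mulVec v := fun g v => rfl
  have hrel' : ∀ g, act' g + ((δC g : Cˣ) : C) • act' g⁻¹ =
      Matrix.trace (ρ g) • (1 : Module.End C (Fin 2 → C)) := by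
    intro g
    have h := congrArg (Matrix.toLinAlgEquiv' :
      Matrix (Fin 2) (Fin 2) C ≃ₐ[C] Module.End C (Fin 2 → C)) (hrelC g)
    rw [map_add, map_smul, map_smul, map_one] at h
    exact h
  have h2C : IsUnit (2 : C) := by
    have := h2.map f
    rwa [map_ofNat] at this
  obtain ⟨φ, hφ⟩ := MatMod.exists_equiv_of_rel h2C hspan hrel' (Module.finrank_fin_fun C)
  -- the quotient map
  let χ : (Fin 2 → R) →+ (Fin 2 → C) :=
    (φ.symm.toLinearMap.toAddMonoidHom).comp
      ((f.compLeft (Fin 2) : (Fin 2 → R) →+* (Fin 2 → C)) : (Fin 2 → R) →+ (Fin 2 → C))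
  have hχ : ∀ v, χ v = φ.symm (f ∘ v) := fun v => rfl
  refine isSubquotPow_of_matrix Ψ hfaith
    (Sum.elim (fun (g : G) (x : X) => act g x) (fun (r : R) (x : X) => r • x))
    (Sum.elim (fun g => ρR g) (fun r => r • (1 : Matrix (Fin 2) (Fin 2) R))) ?_ _ χ ?_ ?_
  · rintro (g | r) x
    · show act g x = Ψ (ρR g) x
      rw [hΨρ]
    · show r • x = Ψ (r • (1 : Matrix (Fin 2) (Fin 2) R)) x
      rw [map_smul, map_one, LinearMap.smul_apply, Module.End.one_apply]
  · intro w
    have hw : ∀ i, ∃ r : R, f r = φ w i := fun i => hf _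
    choose v hv using hw
    refine ⟨v, ?_⟩
    rw [hχ]
    have : f ∘ v = φ w := funext hv
    rw [this, LinearEquiv.symm_apply_apply]
  · rintro (g | r) v
    · show χ ((ρR g).mulVec v) = (ρ g).mulVec (χ v)
      rw [hχ, hχ]
      have e1 : f ∘ ((ρR g).mulVec v) = (ρ' g).mulVec (f ∘ v) := by
        funext i
        exact RingHom.map_mulVec f (ρR g) v i
      rw [e1, ← hact', ← LinearEquiv.apply_symm_apply φ (f ∘ v), hφ,
        LinearEquiv.symm_apply_apply, LinearEquiv.symm_apply_apply]
    · show χ ((r • (1 : Matrix (Fin 2) (Fin 2) R)).mulVec v) = f r • χ v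
      rw [Matrix.smul_mulVec, Matrix.one_mulVec, hχ, hχ]
      have e1 : f ∘ (r • v) = f r • (f ∘ v) := by
        funext i
        show f (r • v i) = f r • f (v i)
        rw [smul_eq_mul, map_mul, smul_eq_mul]
      rw [e1, map_smul]

end Main

/-- a stable subgroup with a prescribed form of the restricted action is a sub(quotient). -/
theorem isSubquotPow_of_subgroup_ext {Gi M : Type*} [AddCommGroup M] (Y : AddSubgroup M)
    (act : Gi → M → M) (actY : Gi → Y → Y) (h : ∀ g (y : Y), ((actY g y : Y) : M) = act g y.1) :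
    IsSubquotPow act actY := by
  let X₁ : AddSubgroup (Unit → M) := Y.comap (Pi.evalAddMonoidHom (fun _ : Unit => M) ())
  let f : X₁ →+ Y :=
    { toFun := fun x => ⟨x.1 (), x.2⟩
      map_zero' := rfl
      map_add' := fun _ _ => rfl }
  have hst : ∀ g, ∀ x ∈ X₁, (fun i => act g (x i)) ∈ X₁ := by
    intro g x hx
    show act g (x ()) ∈ Y
    have := h g ⟨x (), hx⟩
    rw [← this]
    exact (actY g ⟨x (), hx⟩).2
  refine IsSubquotPow.of_fintype (ι := Unit) X₁ f ?_ hst ?_
  · intro y
    exact ⟨⟨fun _ => y.1, y.2⟩, rfl⟩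
  · intro g x
    apply Subtype.ext
    exact (h g ⟨x.1 (), x.2⟩).symm

section Hecke

variable {G : Type*} [Group G] {𝒯 : Type*} [CommRing 𝒯] {X : Type*} [AddCommGroup X] [Finite X]
  {C : Type*} [CommRing C] [IsLocalRing C]

/-- **LOC, Hecke-equivariant form**: the Tate-side subquotient theorem in "big Hecke ring" form,
equivariant for `G` AND for the Hecke ring `𝒯` (acting on `C²` through `π`). -/
theorem isSubquotPow_of_hecke_ext (hecke : 𝒯 →+* AddMonoid.End X) (gal : G →* AddMonoid.End X)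
    (hcomm : ∀ t g, Commute (hecke t) (gal g)) (h2 : IsUnit (2 : C)) (π : 𝒯 →+* C)
    (hπ : Surjective π) (hker : ∀ t, hecke t = 0 → π t = 0)
    (ρ : G →* Matrix (Fin 2) (Fin 2) C) (hspan : Submodule.span C (Set.range ρ) = ⊤)
    {m : ℕ} (hm : (m : AddMonoid.End X) = 0) (δ : G →* (ZMod m)ˣ)
    (hCH : ∀ g, ∃ (t : 𝒯) (c : ℕ), (c : ZMod m) = δ g ∧
      hecke t = gal g + (c : AddMonoid.End X) * gal g⁻¹ ∧ π t = (ρ g).trace) :
    IsSubquotPow
      (Sum.elim (fun (g : G) (x : X) => gal g x) (fun (t : 𝒯) (x : X) => hecke t x))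
      (Sum.elim (fun (g : G) (v : Fin 2 → C) => (ρ g).mulVec v)
        (fun (t : 𝒯) (v : Fin 2 → C) => π t • v)) := by
  set 𝔪 : Ideal 𝒯 := (IsLocalRing.maximalIdeal C).comap π with h𝔪
  have : 𝔪.IsMaximal := Ideal.comap_isMaximal_of_surjective π hπ
  obtain ⟨k, e, he1, he2⟩ := exists_cut hecke 𝔪
  have heu : IsUnit (π e) := by
    rw [← IsLocalRing.notMem_maximalIdeal]
    intro h
    have h1 : π (e - 1) ∈ IsLocalRing.maximalIdeal C := he1
    rw [map_sub, map_one] at h1
    have h3 : (1 : C) ∈ IsLocalRing.maximalIdeal C := by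
      have := Ideal.sub_mem _ h h1
      rwa [sub_sub_cancel] at this
    exact (IsLocalRing.maximalIdeal.isMaximal C).ne_top ((Ideal.eq_top_iff_one _).mpr h3)
  have hle := annihilator_le_ker hecke 𝔪 k π hker e he2 heu
  have : Nontrivial (Rloc hecke 𝔪 k) := nontrivial_Rloc hecke 𝔪 k π hle
  have : IsLocalRing (Rloc hecke 𝔪 k) := isLocalRing hecke 𝔪 k
  have h2m : (2 : 𝒯) ∉ 𝔪 := by
    intro h
    have h1 : π 2 ∈ IsLocalRing.maximalIdeal C := h
    rw [map_ofNat] at h1
    exact (IsLocalRing.notMem_maximalIdeal.mpr h2) h1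
  have h2R : IsUnit (2 : Rloc hecke 𝔪 k) := by
    have := isUnit_mk_of_notMem hecke 𝔪 k h2m
    rwa [map_ofNat] at this
  have key := isSubquotPow_of_gma_ext (actR hecke 𝔪 k gal hcomm) (δR hecke 𝔪 k hm δ) h2R
    (eq_zero_of_forall_smul hecke 𝔪 k)
    (fun g => by
      obtain ⟨t, c, hc, ht, -⟩ := hCH g
      exact ⟨_, rel_of hecke 𝔪 k gal hcomm hm δ g t c hc ht⟩)
    (fR hecke 𝔪 k π hle) (fR_surjective hecke 𝔪 k π hle hπ) ρ hspan
    (fun g r hr => by
      obtain ⟨t, c, hc, ht, htr⟩ := hCH g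
      rw [eq_mk_of_rel hecke 𝔪 k gal hcomm hm δ g t c hc ht r hr, fR_mk, htr])
  -- change the index type to `G ⊕ 𝒯`
  have key' := isSubquotPow_comapIndex
    (Sum.map (id : G → G) (Ideal.Quotient.mk (Module.annihilator 𝒯 (prim hecke 𝔪 k)))) key
  have e2 : (fun g' : G ⊕ 𝒯 =>
      Sum.elim (fun (g : G) (v : Fin 2 → C) => (ρ g).mulVec v)
        (fun (r : Rloc hecke 𝔪 k) (v : Fin 2 → C) => fR hecke 𝔪 k π hle r • v)
        (Sum.map (id : G → G) (Ideal.Quotient.mk (Module.annihilator 𝒯 (prim hecke 𝔪 k))) g')) =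
      Sum.elim (fun (g : G) (v : Fin 2 → C) => (ρ g).mulVec v)
        (fun (t : 𝒯) (v : Fin 2 → C) => π t • v) := by
    funext g'
    cases g' <;> rfl
  rw [e2] at key'
  refine IsSubquotPow.trans ?_ key'
  refine isSubquotPow_of_subgroup_ext (M := X) (prim hecke 𝔪 k).toAddSubgroup _ _ ?_
  rintro (g | t) y
  · rfl
  · rfl

end Hecke

end Fermat.Agent.GB.B10N.SubquotExt
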