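/-
GATE-B / B10' with a NON-UNIT killer (helper78), file 2: **THE LEVEL THEOREM, twisted form**.

helper39's `GB/B10/Core.exists_package_sq_level` uses the Fitting part of an old-killer `t₀` with
`H.π t₀ ∈ Tˣ`.  At the auxiliary Taylor–Wiles levels no UNIT old-killer can be produced, so here the
unit hypothesis is dropped: with the Hecke-equivariant subquotient theorem of
`GB/B10N/SubquotExt.lean` the twisted square relation `τ (τ (t₀ x)) - t₀ x ∈ W_n` on the Kummer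
groups transfers to

  `ρ(τ) (ρ(τ) (H.π t₀ • v)) - H.π t₀ • v ∈ W'`     on `V ⧸ I V`,

for EVERY `t₀` in the Hecke algebra.  (`exists_package_sqT_level`.)

* `connPackage_inl` / `connPackage_of_inl` : the connected package and the index type `G ⊕ 𝒯`;
* `exists_transferT` : `TransferSq.connPackage_transferW` + `sqT_transferW` in existential form.
-/
import Fermat.Agent.GB.B10.Core
import Fermat.Agent.GB.B10N.SubquotExt

set_option autoImplicit false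

noncomputable section

namespace Fermat.Agent.GB.B10N.CoreN

open TensorProduct CuspForm Function IsLocalRing
open Fermat.Agent.Common_helper32 Fermat.Agent.GJ.Tate Fermat.Agent.GH.S32
  Fermat.Agent.GH.S32.InstCore Fermat.Agent.GH.S32.InstAux47 Fermat.Agent.GH.S32.Inst
  Fermat.Agent.GS.Alg.Transfer Fermat.Agent.GB.B10.TransferSq Fermat.Agent.GB.B10.Core
  Fermat.Agent.GB.B10N.SubquotExt

/-! ### generalities on the index type -/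

section Index

variable {G 𝒯 M M' : Type*} [AddCommGroup M] [AddCommGroup M']

/-- the connected package does not see extra operators in the index type. -/
theorem connPackage_inl {I D : Set G} {act : G → M → M} (actT : 𝒯 → M → M) {W : AddSubgroup M}
    (h : ConnPackage I D act W) :
    ConnPackage (Sum.inl '' I : Set (G ⊕ 𝒯)) (Sum.inl '' D) (Sum.elim act actT) W := by
  refine ⟨?_, ?_, ?_⟩
  · rintro _ ⟨σ, hσ, rfl⟩ w
    exact h.stab σ hσ w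
  · rintro _ ⟨σ, hσ, rfl⟩ u
    exact h.incr σ hσ u
  · intro N hN w hw hwN
    exact h.ce N (fun σ hσ u hu => hN (Sum.inl σ) ⟨σ, hσ, rfl⟩ u hu) w hw
      (fun σ hσ => hwN (Sum.inl σ) ⟨σ, hσ, rfl⟩)

/-- conversely. -/
theorem connPackage_of_inl {I D : Set G} {act : G → M → M} {actT : 𝒯 → M → M} {W : AddSubgroup M}
    (h : ConnPackage (Sum.inl '' I : Set (G ⊕ 𝒯)) (Sum.inl '' D) (Sum.elim act actT) W) :
    ConnPackage I D act W := by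
  refine ⟨?_, ?_, ?_⟩
  · intro σ hσ w
    exact h.stab (Sum.inl σ) ⟨σ, hσ, rfl⟩ w
  · intro σ hσ u
    exact h.incr (Sum.inl σ) ⟨σ, hσ, rfl⟩ u
  · intro N hN w hw hwN
    refine h.ce N ?_ w hw ?_
    · rintro _ ⟨σ, hσ, rfl⟩ u hu
      exact hN σ hσ u hu
    · rintro _ ⟨σ, hσ, rfl⟩
      exact hwN σ hσ

/-- **TRANSFER, twisted existential form**: the package together with the twisted square relations
`act τ (act τ (act t u)) - act t u ∈ W` (`τ ∈ Fr`) passes along `IsSubquotPow`. -/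
theorem exists_transferT {I D Fr : Set G} {t : G} {act : G → M → M} {act' : G → M' → M'}
    (hadd : ∀ σ x y, act σ (x + y) = act σ x + act σ y) (hID : I ⊆ D)
    (hinv : ∀ σ ∈ D, ∃ τ ∈ D, ∀ w, act' τ (act' σ w) = w)
    {W : AddSubgroup M} (h : ConnPackage I D act W)
    (hsq : ∀ τ ∈ Fr, ∀ u, act τ (act τ (act t u)) - act t u ∈ W) (hsub : IsSubquotPow act act') :
    ∃ W' : AddSubgroup M', ConnPackage I D act' W' ∧
      ∀ τ ∈ Fr, ∀ v, act' τ (act' τ (act' t v)) - act' t v ∈ W' := by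
  obtain ⟨r, X₁, f, hf, hst, heq⟩ := hsub
  exact ⟨transferW X₁ f W, connPackage_transferW hadd hID hinv h hf hst heq,
    fun τ hτ v => sqT_transferW hf hst heq (hsq τ hτ) v⟩

end Index

variable {p : ℕ} {N : ℕ} [NeZero N] {S : Finset ℕ}
  {𝒪 : Type} [CommRing 𝒪] [IsDomain 𝒪] [IsDiscreteValuationRing 𝒪]
  [IsAdicComplete (IsLocalRing.maximalIdeal 𝒪) 𝒪]
  {θ : CuspForm.heckeAlgebra N 2 (↑S : Set ℕ) →+* IsLocalRing.ResidueField 𝒪}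
  {T : Type} [CommRing T] [IsLocalRing T] [IsNoetherianRing T]
  [IsAdicComplete (IsLocalRing.maximalIdeal T) T] [Algebra 𝒪 T] [IsLocalHom (algebraMap 𝒪 T)]
  [Module.Finite 𝒪 T] [Module.Free 𝒪 T]

omit [IsLocalRing T] [IsNoetherianRing T] [IsAdicComplete (IsLocalRing.maximalIdeal T) T] in
/-- `T ⧸ I`-scalars and `T`-scalars on `(T ⧸ I)²`. -/
theorem mk_smul_vec (I : Ideal T) (a : T) (v : Fin 2 → T ⧸ I) :
    (Ideal.Quotient.mk I a) • v = a • v := by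
  funext i
  show Ideal.Quotient.mk I a * v i = a • v i
  rw [Algebra.smul_def]
  rfl

/-- **THE LEVEL THEOREM, twisted form** (no unit hypothesis on `t₀`). -/
theorem exists_package_sqT_level (D : KumLevelData N S p) (hm : D.Comm)
    [Finite (IsLocalRing.ResidueField 𝒪)] [CharZero 𝒪]
    (hp : p.Prime) (hp2 : p ≠ 2) (hp𝒪 : (p : 𝒪) ∈ maximalIdeal 𝒪)
    (hpS : p ∈ S) (hNS : ∀ q : ℕ, q.Prime → q ∣ N → q ∈ S)
    (H : CuspForm.HeckeGaloisRepDatum N (↑S : Set ℕ) 𝒪 θ T) (I : Ideal T) [Finite (T ⧸ I)]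
    (t₀ : heckeAlgebra N 2 (↑S : Set ℕ))
    {Ip Dp Fr : Set GQ} (hID : Ip ⊆ Dp) (hDinv : ∀ σ ∈ Dp, σ⁻¹ ∈ Dp)
    (hpack : ∀ n : ℕ, ∃ W : AddSubgroup (D.K n),
      ConnPackage Ip Dp (fun (σ : GQ) (x : D.K n) => D.gal n σ x) W ∧
      ∀ τ ∈ Fr, ∀ x : D.K n,
        D.gal n τ (D.gal n τ (D.heckeHom n t₀ x)) - D.heckeHom n t₀ x ∈ W) :
    ∃ W' : AddSubgroup (H.ρ.V ⧸ (I • (⊤ : Submodule T H.ρ.V))),
      ConnPackage Ip Dp (fun (σ : GQ) => H.ρ.levelAction I σ) W' ∧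
      ∀ τ ∈ Fr, ∀ v : H.ρ.V ⧸ (I • (⊤ : Submodule T H.ρ.V)),
        H.ρ.levelAction I τ (H.ρ.levelAction I τ (H.π t₀ • v)) - H.π t₀ • v ∈ W' := by
  have : Fact p.Prime := ⟨hp⟩
  by_cases hI : I = ⊤
  · -- the trivial case
    have : Subsingleton (H.ρ.V ⧸ (I • (⊤ : Submodule T H.ρ.V))) := by
      rw [hI, Submodule.top_smul]
      exact Submodule.Quotient.subsingleton_iff.mpr rfl
    exact ⟨⊤, connPackage_of_subsingleton _ _ _, fun _ _ _ => AddSubgroup.mem_top _⟩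
  have hpT : (p : T) ∈ maximalIdeal T := by
    have h := map_nonunit (algebraMap 𝒪 T) (p : 𝒪) hp𝒪
    rwa [map_natCast] at h
  have hnt : Nontrivial (T ⧸ I) := Ideal.Quotient.nontrivial_iff.mpr hI
  have hloc : IsLocalRing (T ⧸ I) :=
    IsLocalRing.of_surjective' (Ideal.Quotient.mk I) Ideal.Quotient.mk_surjective
  have h2 : IsUnit (2 : T ⧸ I) := by
    have := (isUnit_two hp hp2 hpT).map (Ideal.Quotient.mk I)
    rwa [map_ofNat] at this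
  obtain ⟨k, hk⟩ := exists_pow_le_of_finite_quotient I hI
  obtain ⟨c, hc⟩ := exists_shift D 𝒪
  set n := k + c with hn
  obtain ⟨W, hW, hWsq⟩ := hpack n
  -- the matrix form of `ρ mod I`
  let b : Module.Basis (Fin 2) T H.ρ.V := Module.finBasisOfFinrankEq T H.ρ.V H.ρ.finrank_eq
  have hspan := RhoC.span_rhoC b I H.ρ.ρ (span_range_eq_top_of_residual_absIrr H.ρ H.residual_absIrr)
  -- finiteness
  have hp0 : ((p ^ n : ℕ) : 𝒪) ≠ 0 := by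
    rw [Nat.cast_ne_zero]
    exact pow_ne_zero n hp.ne_zero
  have hfinι : Finite (𝒪 ⧸ Ideal.span {((p ^ n : ℕ) : 𝒪)}) := finite_quotient_span hp0
  let _ : Fintype (𝒪 ⧸ Ideal.span {((p ^ n : ℕ) : 𝒪)}) := Fintype.ofFinite _
  let e₀ : (𝒪 ⧸ Ideal.span {((p ^ n : ℕ) : 𝒪)}) ≃
      Fin (Fintype.card (𝒪 ⧸ Ideal.span {((p ^ n : ℕ) : 𝒪)})) := Fintype.equivFin _
  set r := Fintype.card (𝒪 ⧸ Ideal.span {((p ^ n : ℕ) : 𝒪)}) with hr
  let s : Fin r → 𝒪 := fun i => Quotient.out (e₀.symm i)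
  have hs : ∀ a : 𝒪, ∃ (i : Fin r) (a' : 𝒪), a = s i + ((p ^ n : ℕ) : 𝒪) * a' := by
    intro a
    refine ⟨e₀ (Ideal.Quotient.mk _ a), ?_⟩
    have h1 : Ideal.Quotient.mk (Ideal.span {((p ^ n : ℕ) : 𝒪)})
        (a - s (e₀ (Ideal.Quotient.mk _ a))) = 0 := by
      rw [map_sub, sub_eq_zero]
      show _ = Ideal.Quotient.mk _ (Quotient.out (e₀.symm (e₀ (Ideal.Quotient.mk _ a))))
      rw [Equiv.symm_apply_apply]
      exact (Quotient.out_eq _).symm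
    rw [Ideal.Quotient.eq_zero_iff_mem, Ideal.mem_span_singleton'] at h1
    obtain ⟨a', ha'⟩ := h1
    exact ⟨a', by rw [mul_comm, ha']; ring⟩
  have hKfin : Finite (D.K n) := finite_K D hp.ne_zero n
  have hXfin : Finite (𝒪 ⊗[ℤ] D.K n) :=
    Finite.of_surjective _ (sumMap_surjective D 𝒪 s n hs)
  -- STEP 1: the package and the twisted square relation on `X = 𝒪 ⊗ K n`
  let X₁ : AddSubgroup (Fin r → D.K n) := ⊤
  let f : X₁ →+ 𝒪 ⊗[ℤ] D.K n := (sumMap D 𝒪 s n).comp X₁.subtype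
  have hf : Surjective f := by
    intro y
    obtain ⟨x, rfl⟩ := sumMap_surjective D 𝒪 s n hs y
    exact ⟨⟨x, AddSubgroup.mem_top _⟩, rfl⟩
  have hst : ∀ (g : GQ), ∀ x ∈ X₁, (fun i => D.gal n g (x i)) ∈ X₁ :=
    fun _ _ _ => AddSubgroup.mem_top _
  have heq : ∀ (g : GQ) (x : X₁), f ⟨fun i => D.gal n g (x.1 i), hst g x.1 x.2⟩ =
      galX D 𝒪 n g (f x) := fun g x => (galX_sumMap D 𝒪 s n g x.1).symm
  have hinvX : ∀ σ ∈ Dp, ∃ τ ∈ Dp, ∀ w : 𝒪 ⊗[ℤ] D.K n,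
      galX D 𝒪 n τ (galX D 𝒪 n σ w) = w := by
    intro σ hσ
    refine ⟨σ⁻¹, hDinv σ hσ, fun w => ?_⟩
    have h1 : galX D 𝒪 n σ⁻¹ * galX D 𝒪 n σ = 1 := by rw [← map_mul, inv_mul_cancel, map_one]
    exact DFunLike.congr_fun h1 w
  set WX : AddSubgroup (𝒪 ⊗[ℤ] D.K n) := transferW X₁ f W with hWX
  have hpackX : ConnPackage Ip Dp (fun (σ : GQ) (x : 𝒪 ⊗[ℤ] D.K n) => galX D 𝒪 n σ x) WX :=
    connPackage_transferW (fun σ x y => map_add (D.gal n σ) x y) hID hinvX hW hf hst heq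
  set T₀ : AddMonoid.End (𝒪 ⊗[ℤ] D.K n) := heckeX D 𝒪 n ((1 : 𝒪) ⊗ₜ t₀) with hT₀
  have hT₀sum : ∀ y : Fin r → D.K n,
      T₀ (sumMap D 𝒪 s n y) = sumMap D 𝒪 s n (fun i => D.heckeHom n t₀ (y i)) := by
    intro y
    rw [hT₀, heckeX_one_tmul, sumMap_apply, sumMap_apply, map_sum]
    exact Finset.sum_congr rfl fun i _ => ringX_tmul D 𝒪 n _ (s i) (y i)
  have hsqX : ∀ τ ∈ Fr, ∀ x : 𝒪 ⊗[ℤ] D.K n,
      galX D 𝒪 n τ (galX D 𝒪 n τ (T₀ x)) - T₀ x ∈ WX := by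
    intro τ hτ x
    obtain ⟨y, rfl⟩ := sumMap_surjective D 𝒪 s n hs x
    rw [hT₀sum, galX_sumMap, galX_sumMap, ← map_sub]
    refine mem_transferW.2 ⟨⟨_, AddSubgroup.mem_top _⟩, fun i => ?_, rfl⟩
    exact hWsq τ hτ (y i)
  -- the Frobenius hypothesis in the shape of `exists_hecke_approx`
  have hfrob : ∀ ℓ : ℕ, ℓ.Prime → ℓ ∉ S → ∀ A : ValuationSubring Qb, A.LiesOverPrime ℓ →
      ∀ σ : GQ, A.IsFrobeniusAt σ ℓ →
        LinearMap.charpoly (H.ρ.ρ σ) =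
          Polynomial.X ^ 2 - Polynomial.C (H.π (heckeTl N S ℓ)) * Polynomial.X +
            Polynomial.C ((ℓ : T)) := by
    intro ℓ hℓ hℓS A hA σ hσ
    have hℓN : ¬ ℓ ∣ N := fun h => hℓS (hNS ℓ hℓ h)
    have hℓS' : ℓ ∉ (↑S : Set ℕ) := by simpa using hℓS
    rw [heckeTl_eq hℓ hℓN hℓS']
    exact H.charpoly_frob ℓ hℓ hℓN hℓS' A hA σ hσ
  have hkerX : ∀ t' : 𝒪 ⊗[ℤ] heckeAlgebra N 2 (↑S : Set ℕ), heckeX D 𝒪 n t' = 0 →
      ((Ideal.Quotient.mk I).comp (piT H).toRingHom) t' = 0 := by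
    intro t' ht'
    obtain ⟨t'', rfl⟩ := hc k t' ht'
    show Ideal.Quotient.mk I (piT H (((p : 𝒪) ^ k) • t'')) = 0
    rw [map_smul, Ideal.Quotient.eq_zero_iff_mem, Algebra.smul_def, map_pow, map_natCast]
    exact I.mul_mem_right _ (hk (Ideal.pow_mem_pow hpT k))
  have hCHX : ∀ g : GQ, ∃ (t : 𝒪 ⊗[ℤ] heckeAlgebra N 2 (↑S : Set ℕ)) (c' : ℕ),
      (c' : ZMod (p ^ n)) = cycMod p n g ∧
      heckeX D 𝒪 n t = galX D 𝒪 n g + (c' : AddMonoid.End (𝒪 ⊗[ℤ] D.K n)) * galX D 𝒪 n g⁻¹ ∧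
      ((Ideal.Quotient.mk I).comp (piT H).toRingHom) t = (RhoC.rhoC b I H.ρ.ρ g).trace := by
    intro g
    obtain ⟨t, c', h1, h2', h3⟩ := exists_hecke_approx D.tateLevels hpS H.π H.ρ hfrob k n g
    refine ⟨(1 : 𝒪) ⊗ₜ t, c', h3.symm, ?_, ?_⟩
    · rw [heckeX_one_tmul, galX_apply, galX_apply]
      have h2'' : D.heckeHom n t = D.gal n g + (c' : AddMonoid.End (D.K n)) * D.gal n g⁻¹ := h2'
      rw [h2'', map_add, map_mul, map_natCast]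
    · show Ideal.Quotient.mk I (piT H ((1 : 𝒪) ⊗ₜ t)) = _
      rw [piT_tmul, map_one, one_mul, RhoC.trace_rhoC, eq_comm, ← sub_eq_zero, ← map_sub,
        Ideal.Quotient.eq_zero_iff_mem]
      exact hk h1
  -- STEP 2: the Hecke-equivariant subquotient theorem, index type `GQ ⊕ 𝒯`
  have hsubE := isSubquotPow_of_hecke_ext (heckeX D 𝒪 n) (galX D 𝒪 n)
    (commute_heckeX_galX D 𝒪 hm hNS n) h2
    ((Ideal.Quotient.mk I).comp (piT H).toRingHom)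
    (Ideal.Quotient.mk_surjective.comp (piT_surjective H)) hkerX (RhoC.rhoC b I H.ρ.ρ) hspan
    (natCast_pow_eq_zero D 𝒪 n) (cycMod p n) hCHX
  -- STEP 3: the link to `V ⧸ I V`, equivariant for `GQ ⊕ 𝒯`
  have link3 : IsSubquotPow
      (Sum.elim (fun (g : GQ) (v : Fin 2 → T ⧸ I) => (RhoC.rhoC b I H.ρ.ρ g).mulVec v)
        (fun (t : 𝒪 ⊗[ℤ] heckeAlgebra N 2 (↑S : Set ℕ)) (v : Fin 2 → T ⧸ I) =>
          ((Ideal.Quotient.mk I).comp (piT H).toRingHom) t • v))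
      (Sum.elim (fun (σ : GQ) (w : H.ρ.V ⧸ (I • (⊤ : Submodule T H.ρ.V))) => H.ρ.levelAction I σ w)
        (fun (t : 𝒪 ⊗[ℤ] heckeAlgebra N 2 (↑S : Set ℕ))
          (w : H.ρ.V ⧸ (I • (⊤ : Submodule T H.ρ.V))) => piT H t • w)) := by
    refine IsSubquotPow.of_addEquiv (RhoC.vecEquiv b I) ?_
    rintro (σ | t) v
    · exact RhoC.vecEquiv_mulVec b I H.ρ.ρ σ _ v
    · show RhoC.vecEquiv b I (Ideal.Quotient.mk I (piT H t) • v) = piT H t • RhoC.vecEquiv b I v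
      rw [mk_smul_vec]
      exact map_smul (RhoC.quotEquiv b I).symm (piT H t) v
  have hsubV := hsubE.trans link3
  -- STEP 4: transfer
  have haddE : ∀ (σ : GQ ⊕ (𝒪 ⊗[ℤ] heckeAlgebra N 2 (↑S : Set ℕ))) (x y : 𝒪 ⊗[ℤ] D.K n),
      Sum.elim (fun (g : GQ) (x : 𝒪 ⊗[ℤ] D.K n) => galX D 𝒪 n g x)
        (fun (t : 𝒪 ⊗[ℤ] heckeAlgebra N 2 (↑S : Set ℕ)) (x : 𝒪 ⊗[ℤ] D.K n) =>
          heckeX D 𝒪 n t x) σ (x + y) =
      Sum.elim (fun (g : GQ) (x : 𝒪 ⊗[ℤ] D.K n) => galX D 𝒪 n g x)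
        (fun (t : 𝒪 ⊗[ℤ] heckeAlgebra N 2 (↑S : Set ℕ)) (x : 𝒪 ⊗[ℤ] D.K n) =>
          heckeX D 𝒪 n t x) σ x +
      Sum.elim (fun (g : GQ) (x : 𝒪 ⊗[ℤ] D.K n) => galX D 𝒪 n g x)
        (fun (t : 𝒪 ⊗[ℤ] heckeAlgebra N 2 (↑S : Set ℕ)) (x : 𝒪 ⊗[ℤ] D.K n) =>
          heckeX D 𝒪 n t x) σ y := by
    rintro (g | t) x y
    · exact map_add (galX D 𝒪 n g) x y
    · exact map_add (heckeX D 𝒪 n t) x y
  have hIDE : (Sum.inl '' Ip : Set (GQ ⊕ (𝒪 ⊗[ℤ] heckeAlgebra N 2 (↑S : Set ℕ)))) ⊆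
      Sum.inl '' Dp := Set.image_mono hID
  have hinvE : ∀ σ ∈ (Sum.inl '' Dp : Set (GQ ⊕ (𝒪 ⊗[ℤ] heckeAlgebra N 2 (↑S : Set ℕ)))),
      ∃ τ ∈ (Sum.inl '' Dp : Set (GQ ⊕ (𝒪 ⊗[ℤ] heckeAlgebra N 2 (↑S : Set ℕ)))),
        ∀ w : H.ρ.V ⧸ (I • (⊤ : Submodule T H.ρ.V)),
          Sum.elim (fun (σ : GQ) (w : H.ρ.V ⧸ (I • (⊤ : Submodule T H.ρ.V))) => H.ρ.levelAction I σ w)
            (fun (t : 𝒪 ⊗[ℤ] heckeAlgebra N 2 (↑S : Set ℕ))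
              (w : H.ρ.V ⧸ (I • (⊤ : Submodule T H.ρ.V))) => piT H t • w) τ
            (Sum.elim (fun (σ : GQ) (w : H.ρ.V ⧸ (I • (⊤ : Submodule T H.ρ.V))) => H.ρ.levelAction I σ w)
              (fun (t : 𝒪 ⊗[ℤ] heckeAlgebra N 2 (↑S : Set ℕ))
                (w : H.ρ.V ⧸ (I • (⊤ : Submodule T H.ρ.V))) => piT H t • w) σ w) = w := by
    rintro _ ⟨σ, hσ, rfl⟩
    exact ⟨Sum.inl σ⁻¹, ⟨σ⁻¹, hDinv σ hσ, rfl⟩,
      fun w => levelAction_inv_levelAction' H.ρ I σ w⟩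
  have hsqE : ∀ τ ∈ (Sum.inl '' Fr : Set (GQ ⊕ (𝒪 ⊗[ℤ] heckeAlgebra N 2 (↑S : Set ℕ)))),
      ∀ u : 𝒪 ⊗[ℤ] D.K n,
        Sum.elim (fun (g : GQ) (x : 𝒪 ⊗[ℤ] D.K n) => galX D 𝒪 n g x)
          (fun (t : 𝒪 ⊗[ℤ] heckeAlgebra N 2 (↑S : Set ℕ)) (x : 𝒪 ⊗[ℤ] D.K n) =>
            heckeX D 𝒪 n t x) τ
          (Sum.elim (fun (g : GQ) (x : 𝒪 ⊗[ℤ] D.K n) => galX D 𝒪 n g x)
            (fun (t : 𝒪 ⊗[ℤ] heckeAlgebra N 2 (↑S : Set ℕ)) (x : 𝒪 ⊗[ℤ] D.K n) =>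
              heckeX D 𝒪 n t x) τ
            (Sum.elim (fun (g : GQ) (x : 𝒪 ⊗[ℤ] D.K n) => galX D 𝒪 n g x)
              (fun (t : 𝒪 ⊗[ℤ] heckeAlgebra N 2 (↑S : Set ℕ)) (x : 𝒪 ⊗[ℤ] D.K n) =>
                heckeX D 𝒪 n t x) (Sum.inr ((1 : 𝒪) ⊗ₜ t₀)) u)) -
        Sum.elim (fun (g : GQ) (x : 𝒪 ⊗[ℤ] D.K n) => galX D 𝒪 n g x)
          (fun (t : 𝒪 ⊗[ℤ] heckeAlgebra N 2 (↑S : Set ℕ)) (x : 𝒪 ⊗[ℤ] D.K n) =>
            heckeX D 𝒪 n t x) (Sum.inr ((1 : 𝒪) ⊗ₜ t₀)) u ∈ WX := by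
    rintro _ ⟨τ, hτ, rfl⟩ u
    exact hsqX τ hτ u
  obtain ⟨W', hW', hsqW'⟩ := exists_transferT haddE hIDE hinvE
    (connPackage_inl (fun (t : 𝒪 ⊗[ℤ] heckeAlgebra N 2 (↑S : Set ℕ)) (x : 𝒪 ⊗[ℤ] D.K n) =>
      heckeX D 𝒪 n t x) hpackX) hsqE hsubV
  refine ⟨W', connPackage_of_inl hW', fun τ hτ v => ?_⟩
  have h1 := hsqW' (Sum.inl τ) ⟨τ, hτ, rfl⟩ v
  have e1 : piT H ((1 : 𝒪) ⊗ₜ t₀) = H.π t₀ := by rw [piT_tmul, map_one, one_mul]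
  simp only [Sum.elim_inl, Sum.elim_inr, e1] at h1
  exact h1

end Fermat.Agent.GB.B10N.CoreN
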