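/-
GATE-B / B10' (C4) of helper78's board post 5940 (helper49): **a `T_p`-eigenvalue of a non-zero
cusp form of weight 2 on `Γ₀(N)`, `p ∤ N`, is neither `p + 1` nor `-(p + 1)`.**

Petersson argument on helper83's `GS/Pet` library.  For `ε = ±1` and `a = ε (p + 1)`:
`Φ(z) = ∑_{x ∈ ℙ¹(𝔽_p)} ‖(f - ε f∣β_x)(z)‖² (im z)² = ∑_x ψ(β_x z) - (p + 1) ψ(z)`, `ψ = ‖f‖² im²`,
is continuous, `≥ 0`, `Γ₀(N)`-invariant and has integral `0` over a fundamental domain (unfolding
`sum_setIntegral_conj`), hence `Φ = 0`, `f = ε f∣diag(p, 1)`, i.e. `f(z) = ε p f(p z)`; iterating,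
`f(z) = (ε p)ⁿ f(pⁿ z) → 0` by the exponential decay of cusp forms.

* `eq_zero_of_setIntegral_eq_zero` : a continuous non-negative `Γ₀(N)`-invariant function with
  zero integral over `fdN N` vanishes identically;
* `sum_setIntegral_heckeRep` : `∑_x ∫_{fdN} ψ(β_x z) = (p + 1) ∫_{fdN} ψ` for invariant `ψ`;
* `heckeT_eigenvalue_ne` : the theorem.
-/
import Mathlib
import Fermat.Agent.GS.Pet.Adjoint

set_option autoImplicit false
set_option linter.unusedSectionVars false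

open MeasureTheory Set Function UpperHalfPlane
open Matrix.SpecialLinearGroup CongruenceSubgroup ModularForm
open P2MW.S_ModularForm_heckeT_slash_eq_self_of_mem_Gamma0.ModularForm.HeckeSlashInvariance
open Fermat.Agent.GS.Pet
open scoped Pointwise Modular MatrixGroups ComplexConjugate ENNReal OnePoint

namespace Fermat.Agent.GB.B10N.HeckeBound

local notation "𝔾" => GL (Fin 2) ℝ

section Vanish

variable {N : ℕ} [NeZero N]

/-- a continuous non-negative `Γ₀(N)`-invariant function with zero integral over the fundamental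
domain `fdN N` vanishes identically -/
theorem eq_zero_of_setIntegral_eq_zero (φ : ℍ → ℝ) (hc : Continuous φ) (h0 : ∀ τ, 0 ≤ φ τ)
    (hinv : ∀ γ ∈ ((Gamma0 N).map (mapGL ℝ) : Subgroup 𝔾), ∀ τ, φ (γ • τ) = φ τ)
    (hint : IntegrableOn φ (fdN N) volume) (h : ∫ τ in fdN N, φ τ = 0) (τ : ℍ) : φ τ = 0 := by
  have hD := isFundamentalDomain_fdN N
  have h1 : φ =ᵐ[volume.restrict (fdN N)] 0 :=
    (setIntegral_eq_zero_iff_of_nonneg_ae (Filter.Eventually.of_forall h0) hint).1 h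
  set Z : Set ℍ := {τ | φ τ ≠ 0} with hZ
  have hZopen : IsOpen Z := isOpen_ne_fun hc continuous_const
  have hZinv : ∀ g : bar ℍ ((Gamma0 N).map (mapGL ℝ) : Subgroup 𝔾), g • Z = Z := by
    intro g
    obtain ⟨γ, hγ, rfl⟩ := exists_rep_bar g
    rw [barMk_smul_set]
    ext τ
    rw [mem_smul_set_iff_inv_smul_mem]
    show φ (γ⁻¹ • τ) ≠ 0 ↔ φ τ ≠ 0
    rw [hinv _ (inv_mem hγ)]
  have hZnull : volume (Z ∩ fdN N) = 0 := by
    have : ∀ᵐ τ ∂(volume.restrict (fdN N)), τ ∉ Z := by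
      filter_upwards [h1] with τ hτ
      simpa [hZ] using hτ
    rw [ae_iff] at this
    simp only [not_not] at this
    rw [Measure.restrict_apply₀' hD.nullMeasurableSet] at this
    exact this
  have hZ0 : volume Z = 0 := hD.measure_zero_of_invariant Z hZinv hZnull
  have hZempty : Z = ∅ := (hZopen.measure_eq_zero_iff volume).1 hZ0
  have hτ : τ ∉ Z := by rw [hZempty]; exact notMem_empty τ
  simpa [hZ] using hτ

end Vanish

section Unfold

variable {N : ℕ} [NeZero N] {p : ℕ} [Fact p.Prime]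

theorem card_onePoint_zmod : Fintype.card (OnePoint (ZMod p)) = p + 1 := by
  have : Fintype.card (OnePoint (ZMod p)) = Fintype.card (Option (ZMod p)) := rfl
  rw [this, Fintype.card_option, ZMod.card]

/-- `β_x z` and `β_0 τ₀(x) z` differ by an element of `Γ₀(N)` -/
theorem apply_heckeRep_smul (hpN : ¬ p ∣ N) (ψ : ℍ → ℂ)
    (hψ : ∀ γ ∈ ((Gamma0 N).map (mapGL ℝ) : Subgroup 𝔾), ∀ z, ψ (γ • z) = ψ z)
    {τ : SL(2, ℤ)} (hτ : τ ∈ Gamma0 N) (x₀ : OnePoint (ZMod p)) (z : ℍ) :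
    ψ (heckeRep p x₀ • (mapGL ℝ τ : 𝔾) • z) = ψ (heckeRep p (ract τ x₀) • z) := by
  obtain ⟨g', hg', hmul⟩ := heckeRep_mul_mem hpN hτ x₀
  rw [← mul_smul, hmul, mul_smul]
  exact hψ _ (Subgroup.mem_map_of_mem _ hg') _

/-- **unfolding**: `∑_x ∫_{fdN} ψ(β_x z) = (p + 1) ∫_{fdN} ψ` for a `Γ₀(N)`-invariant `ψ` -/
theorem sum_setIntegral_heckeRep (hpN : ¬ p ∣ N) (ψ : ℍ → ℂ)
    (hψ : ∀ γ ∈ ((Gamma0 N).map (mapGL ℝ) : Subgroup 𝔾), ∀ z, ψ (γ • z) = ψ z)
    (hint : ∀ M : 𝔾, IntegrableOn (fun z => ψ (M • z)) (fdN N) volume) :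
    ∑ x : OnePoint (ZMod p), ∫ z in fdN N, ψ (heckeRep p x • z)
      = ((p : ℂ) + 1) * ∫ z in fdN N, ψ z := by
  choose τ0 hτ0 hτ0x using exists_ract_zero (p := p) (N := N) hpN
  choose τi hτi hτix using exists_ract_infty (p := p) (N := N) hpN
  have key := sum_setIntegral_conj (X := ℍ) (μ := volume)
    (Γ := ((Gamma0 N).map (mapGL ℝ) : Subgroup 𝔾))
    (Γ₁ := ((stab p N ((0 : ZMod p) : OnePoint (ZMod p))).map (mapGL ℝ) : Subgroup 𝔾))
    (Γ₂ := ((stab p N (∞ : OnePoint (ZMod p))).map (mapGL ℝ) : Subgroup 𝔾))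
    (heckeMatrix p 0) (Subgroup.map_mono (stab_le _)) (Subgroup.map_mono (stab_le _))
    (kerLE_map _ _ (neg_one_mem_stab N _)) (kerLE_map _ _ (neg_one_mem_stab N _))
    (mem_stab_infty_iff_conj hpN) (isFundamentalDomain_fdN N)
    (isReps_of_transitive _ τ0 hτ0 hτ0x) (isReps_of_transitive _ τi hτi hτix)
    ψ
    (fun γ hγ z => hψ γ (Subgroup.map_mono (stab_le _) hγ) z)
    (fun x => by
      have := hint (heckeMatrix p 0 * ((mapGL ℝ (τ0 x)⁻¹ : 𝔾))⁻¹)
      simpa only [mul_smul] using this)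
    (fun y => hint _)
  simp only [map_inv, inv_inv] at key
  have hL : ∀ y : OnePoint (ZMod p), ∫ z in fdN N, ψ ((mapGL ℝ (τi y) : 𝔾) • z)
      = ∫ z in fdN N, ψ z := fun y =>
    integral_congr_ae (Filter.Eventually.of_forall fun z =>
      hψ _ (Subgroup.mem_map_of_mem _ (hτi y)) z)
  have hR : ∀ x : OnePoint (ZMod p),
      ∫ z in fdN N, ψ (heckeMatrix p 0 • (mapGL ℝ (τ0 x) : 𝔾) • z)
        = ∫ z in fdN N, ψ (heckeRep p x • z) := fun x =>
    integral_congr_ae (Filter.Eventually.of_forall fun z => by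
      have h := apply_heckeRep_smul hpN ψ hψ (hτ0 x) ((0 : ZMod p) : OnePoint (ZMod p)) z
      rw [hτ0x, heckeRep_zero] at h
      exact h)
  rw [← Finset.sum_congr rfl fun x _ => hR x, ← key, Finset.sum_congr rfl fun y _ => hL y,
    Finset.sum_const, Finset.card_univ, card_onePoint_zmod, nsmul_eq_mul]
  push_cast
  rfl

end Unfold

section Pointwise

variable {p : ℕ}

theorem σ_heckeRep (x : OnePoint (ZMod p)) : UpperHalfPlane.σ (heckeRep p x) = .refl ℝ ℂ := by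
  induction x using OnePoint.rec with
  | infty => exact σ_heckeDiagMatrix p
  | coe j => exact σ_heckeMatrix p j.val

theorem petersson_slash_heckeRep (F G : ℍ → ℂ) (x : OnePoint (ZMod p)) (z : ℍ) :
    petersson 2 (F ∣[(2 : ℤ)] heckeRep p x) (G ∣[(2 : ℤ)] heckeRep p x) z
      = petersson 2 F G (heckeRep p x • z) := by
  rw [petersson_slash, σ_heckeRep, sub_self, zpow_zero, one_mul]
  rfl

/-- expansion of `|F - ε G|²` for a sign `ε` -/
theorem petersson_sub_smul (k : ℤ) (ε : ℂ) (hε : conj ε = ε) (hε2 : ε * ε = 1) (F G : ℍ → ℂ)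
    (z : ℍ) :
    petersson k (fun w => F w - ε * G w) (fun w => F w - ε * G w) z
      = petersson k F F z - ε * petersson k F G z - ε * petersson k G F z
        + petersson k G G z := by
  simp only [petersson, map_sub, map_mul, hε]
  linear_combination (conj (G z) * G z * ((z.im : ℂ) ^ k)) * hε2

end Pointwise

section Main

variable {N : ℕ} [NeZero N] {p : ℕ}

/-- the heart: `T_p f = ε (p + 1) f` for a sign `ε` forces `f = ε f∣β_x` for all `x` -/
theorem eq_smul_slash_of_heckeT_eq (hp : p.Prime) (hpN : ¬ p ∣ N) (f : CuspForm (Gamma0 N) 2)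
    (ε : ℂ) (hε : conj ε = ε) (hε2 : ε * ε = 1)
    (ha : CuspForm.heckeTLin 2 hp hpN f = (ε * ((p : ℂ) + 1)) • f)
    (x : OnePoint (ZMod p)) (z : ℍ) :
    f z = ε * ((f : ℍ → ℂ) ∣[(2 : ℤ)] heckeRep p x) z := by
  have : Fact p.Prime := ⟨hp⟩
  have : NeZero p := ⟨hp.ne_zero⟩
  obtain ⟨ψ, hψdef⟩ : ∃ ψ : ℍ → ℂ, ψ = petersson 2 f f := ⟨_, rfl⟩
  obtain ⟨G, hG⟩ : ∃ G : OnePoint (ZMod p) → ℍ → ℂ,
      ∀ x, G x = (f : ℍ → ℂ) ∣[(2 : ℤ)] heckeRep p x := ⟨_, fun _ => rfl⟩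
  -- the Hecke relation on functions
  have hT : ∑ x : OnePoint (ZMod p), G x = (ε * ((p : ℂ) + 1)) • (f : ℍ → ℂ) := by
    rw [Finset.sum_congr rfl fun x _ => hG x, ← heckeT_eq_sum_onePoint,
      ← CuspForm.coe_heckeTLin_apply 2 hp hpN f, ha]
    rfl
  have hψinv : ∀ γ ∈ ((Gamma0 N).map (mapGL ℝ) : Subgroup 𝔾), ∀ w, ψ (γ • w) = ψ w := by
    intro γ hγ w
    rw [hψdef]
    exact petersson_smul_Gamma0 f f hγ w
  have hψint : ∀ M : 𝔾, IntegrableOn (fun w => ψ (M • w)) (fdN N) volume := by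
    intro M
    rw [hψdef]
    exact integrableOn_petersson (continuous_cuspForm f) (continuous_cuspForm f)
      (petBdd_cuspForm f) (petBdd_cuspForm f) M (volume_fdN_lt_top N)
  -- the sum of squares
  obtain ⟨Ψ, hΨ⟩ : ∃ Ψ : ℍ → ℂ, ∀ w, Ψ w =
      ∑ x : OnePoint (ZMod p), ψ (heckeRep p x • w) - ((p : ℂ) + 1) * ψ w := ⟨_, fun _ => rfl⟩
  obtain ⟨φ, hφ⟩ : ∃ φ : ℍ → ℝ, ∀ w, φ w =
      ∑ x : OnePoint (ZMod p), ‖f w - ε * G x w‖ ^ 2 * w.im ^ (2 : ℤ) := ⟨_, fun _ => rfl⟩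
  have hφΨ : ∀ w, ((φ w : ℝ) : ℂ) = Ψ w := by
    intro w
    have h1 : ∀ x : OnePoint (ZMod p),
        (((‖f w - ε * G x w‖ ^ 2 * w.im ^ (2 : ℤ) : ℝ)) : ℂ)
          = ψ w - ε * petersson 2 f (G x) w - ε * petersson 2 (G x) f w
            + ψ (heckeRep p x • w) := by
      intro x
      have e0 : petersson 2 (G x) (G x) w = ψ (heckeRep p x • w) := by
        rw [hG x, petersson_slash_heckeRep, hψdef]
      rw [← e0, hψdef, ← petersson_sub_smul 2 ε hε hε2 f (G x) w]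
      exact (petersson_self_eq (k := 2) (fun w => f w - ε * G x w) w).symm
    have s1 : ∑ x : OnePoint (ZMod p), petersson 2 (f : ℍ → ℂ) (G x) w
        = (ε * ((p : ℂ) + 1)) * ψ w := by
      rw [← petersson_sum_right, hT, hψdef]
      simp only [petersson, Pi.smul_apply, smul_eq_mul]
      ring
    have s2 : ∑ x : OnePoint (ZMod p), petersson 2 (G x) (f : ℍ → ℂ) w
        = (ε * ((p : ℂ) + 1)) * ψ w := by
      rw [← petersson_sum_left, hT, hψdef]
      simp only [petersson, Pi.smul_apply, smul_eq_mul, map_mul, map_add, map_one,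
        Complex.conj_natCast, hε]
      ring
    rw [hφ w, Complex.ofReal_sum, Finset.sum_congr rfl fun x _ => h1 x, hΨ w,
      Finset.sum_add_distrib, Finset.sum_sub_distrib, Finset.sum_sub_distrib,
      ← Finset.mul_sum, ← Finset.mul_sum, s1, s2, Finset.sum_const, Finset.card_univ,
      card_onePoint_zmod, nsmul_eq_mul]
    push_cast
    linear_combination (-2 * ((p : ℂ) + 1) * ψ w) * hε2
  -- continuity and positivity
  have hGc : ∀ x, Continuous (G x) := fun x => by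
    rw [hG x]
    exact continuous_slash (continuous_cuspForm f) _
  have hφc : Continuous φ := by
    have : φ = fun w => ∑ x : OnePoint (ZMod p), ‖f w - ε * G x w‖ ^ 2 * w.im ^ (2 : ℤ) :=
      funext hφ
    rw [this]
    refine continuous_finsetSum _ fun x _ => ?_
    have him : Continuous fun τ : ℍ => τ.im := UpperHalfPlane.continuous_im
    exact ((((continuous_cuspForm f).sub (continuous_const.mul (hGc x))).norm).pow 2).mul
      (him.zpow₀ 2 fun τ => Or.inl τ.im_pos.ne')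
  have hφ0 : ∀ w, 0 ≤ φ w := fun w => by
    rw [hφ w]
    exact Finset.sum_nonneg fun x _ => mul_nonneg (sq_nonneg _) (zpow_nonneg w.im_pos.le 2)
  -- invariance
  have hΨinv : ∀ γ ∈ ((Gamma0 N).map (mapGL ℝ) : Subgroup 𝔾), ∀ w, Ψ (γ • w) = Ψ w := by
    rintro _ ⟨g, hg, rfl⟩ w
    rw [hΨ, hΨ, hψinv _ (Subgroup.mem_map_of_mem _ hg)]
    congr 1
    rw [Finset.sum_congr rfl fun x _ => apply_heckeRep_smul hpN ψ hψinv hg x w]
    exact Equiv.sum_comp
      (⟨ract g, ract g⁻¹, ract_inv_ract g, ract_ract_inv g⟩ :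
        OnePoint (ZMod p) ≃ OnePoint (ZMod p)) (fun x => ψ (heckeRep p x • w))
  have hφinv : ∀ γ ∈ ((Gamma0 N).map (mapGL ℝ) : Subgroup 𝔾), ∀ w, φ (γ • w) = φ w := by
    intro γ hγ w
    have h := hΨinv γ hγ w
    rw [← hφΨ, ← hφΨ] at h
    exact_mod_cast h
  -- integrability
  have hψ1 : IntegrableOn ψ (fdN N) volume := by
    have h1 := hψint 1
    simp only [one_smul] at h1
    exact h1
  have hΨeq : Ψ = fun w =>
      ∑ x : OnePoint (ZMod p), ψ (heckeRep p x • w) - ((p : ℂ) + 1) * ψ w := funext hΨ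
  have hsumint : IntegrableOn (fun w => ∑ x : OnePoint (ZMod p), ψ (heckeRep p x • w))
      (fdN N) volume := integrable_finsetSum _ fun x _ => hψint (heckeRep p x)
  have hΨint : IntegrableOn Ψ (fdN N) volume := by
    rw [hΨeq]
    exact hsumint.sub (hψ1.const_mul _)
  have hφint : IntegrableOn φ (fdN N) volume := by
    refine hΨint.re.congr (Filter.Eventually.of_forall fun w => ?_)
    show (Ψ w).re = φ w
    rw [← hφΨ, Complex.ofReal_re]
  -- the integral vanishes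
  have hint0 : ∫ w in fdN N, φ w = 0 := by
    have h1 : ((∫ w in fdN N, φ w : ℝ) : ℂ) = ∫ w in fdN N, Ψ w := by
      rw [← integral_complex_ofReal]
      exact integral_congr_ae (Filter.Eventually.of_forall fun w => hφΨ w)
    have h2 : ∫ w in fdN N, Ψ w = 0 := by
      rw [hΨeq, integral_sub hsumint (hψ1.const_mul _),
        integral_finsetSum _ (fun x _ => hψint (heckeRep p x)), integral_const_mul,
        sum_setIntegral_heckeRep hpN ψ hψinv hψint, sub_self]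
    rw [h2] at h1
    exact_mod_cast h1
  have hφz := eq_zero_of_setIntegral_eq_zero φ hφc hφ0 hφinv hφint hint0 z
  rw [hφ z] at hφz
  have h5 := (Finset.sum_eq_zero_iff_of_nonneg (fun x _ =>
    mul_nonneg (sq_nonneg _) (zpow_nonneg z.im_pos.le 2))).1 hφz x (Finset.mem_univ x)
  have him : z.im ^ (2 : ℤ) ≠ 0 := zpow_ne_zero 2 z.im_pos.ne'
  have h3 : ‖f z - ε * G x z‖ ^ 2 = 0 := by
    rcases mul_eq_zero.1 h5 with h | h
    · exact h
    · exact absurd h him
  have h4 : f z - ε * G x z = 0 := by simpa using h3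
  rw [← hG x]
  exact sub_eq_zero.1 h4

/-- a cusp form with `f = ε f∣diag(p, 1)`, `ε² = 1`, vanishes: `f(z) = (ε p)ⁿ f(pⁿ z) → 0` -/
theorem eq_zero_of_eq_smul_slash_diag (hp : p.Prime) (f : CuspForm (Gamma0 N) 2) (ε : ℂ)
    (hε2 : ε * ε = 1)
    (h : ∀ z : ℍ, f z = ε * ((f : ℍ → ℂ) ∣[(2 : ℤ)] heckeDiagMatrix p) z) : f = 0 := by
  have hp0 : p ≠ 0 := hp.ne_zero
  have hp1 : (1 : ℝ) < (p : ℝ) := by exact_mod_cast hp.one_lt
  have hεn : ‖ε‖ = 1 := by
    have h1 : ‖ε‖ * ‖ε‖ = 1 := by rw [← norm_mul, hε2, norm_one]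
    nlinarith [norm_nonneg ε]
  -- one step
  have hstep : ∀ z : ℍ, ‖f z‖ = (p : ℝ) * ‖f (heckeDiagMatrix p • z)‖ := by
    intro z
    rw [h z, slash_heckeDiagMatrix_apply 2 hp0, norm_mul, norm_mul, hεn, one_mul]
    norm_num
  have him : ∀ z : ℍ, (heckeDiagMatrix p • z).im = (p : ℝ) * z.im := by
    intro z
    rw [← UpperHalfPlane.coe_im, coe_heckeDiagMatrix_smul hp0]
    simp
  -- iteration
  have hiter : ∀ (n : ℕ) (z : ℍ), ∃ w : ℍ, w.im = (p : ℝ) ^ n * z.im ∧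
      ‖f z‖ = (p : ℝ) ^ n * ‖f w‖ := by
    intro n
    induction n with
    | zero => exact fun z => ⟨z, by simp, by simp⟩
    | succ n ih =>
      intro z
      obtain ⟨w, hw1, hw2⟩ := ih z
      refine ⟨heckeDiagMatrix p • w, ?_, ?_⟩
      · rw [him, hw1]
        ring
      · rw [hw2, hstep w]
        ring
  -- decay
  obtain ⟨c, hc, hO⟩ := CuspFormClass.exp_decay_atImInfty' f
  obtain ⟨K, hK⟩ := hO.bound
  rw [Filter.Eventually, UpperHalfPlane.atImInfty_mem] at hK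
  obtain ⟨A, hA⟩ := hK
  ext z
  have hy : 0 < z.im := z.im_pos
  have ht : Filter.Tendsto (fun n : ℕ => c * z.im * (p : ℝ) ^ n) Filter.atTop Filter.atTop :=
    (tendsto_pow_atTop_atTop_of_one_lt hp1).const_mul_atTop (mul_pos hc hy)
  have h1 := ((Real.tendsto_pow_mul_exp_neg_atTop_nhds_zero 1).comp ht).const_mul (K / (c * z.im))
  rw [mul_zero] at h1
  have hev : ∀ᶠ n : ℕ in Filter.atTop, ‖f z‖ ≤
      (K / (c * z.im)) * (((fun x : ℝ => x ^ 1 * Real.exp (-x)) ∘
        fun n : ℕ => c * z.im * (p : ℝ) ^ n) n) := by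
    have hge : ∀ᶠ n : ℕ in Filter.atTop, A / z.im ≤ (p : ℝ) ^ n :=
      (tendsto_pow_atTop_atTop_of_one_lt hp1).eventually_ge_atTop _
    filter_upwards [hge] with n hn
    obtain ⟨w, hw1, hw2⟩ := hiter n z
    have hAw : A ≤ w.im := by
      rw [hw1]
      exact (div_le_iff₀ hy).1 hn
    have hb : ‖f w‖ ≤ K * ‖Real.exp (-c * w.im)‖ := hA w hAw
    rw [Real.norm_eq_abs, abs_of_pos (Real.exp_pos _)] at hb
    rw [hw2]
    have hpn : 0 ≤ (p : ℝ) ^ n := pow_nonneg (by positivity) n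
    calc (p : ℝ) ^ n * ‖f w‖ ≤ (p : ℝ) ^ n * (K * Real.exp (-c * w.im)) :=
          mul_le_mul_of_nonneg_left hb hpn
      _ = (K / (c * z.im)) * (((fun x : ℝ => x ^ 1 * Real.exp (-x)) ∘
            fun n : ℕ => c * z.im * (p : ℝ) ^ n) n) := by
          have hcy : c * z.im ≠ 0 := (mul_pos hc hy).ne'
          simp only [Function.comp_apply, pow_one]
          rw [hw1]
          have : -c * ((p : ℝ) ^ n * z.im) = -(c * z.im * (p : ℝ) ^ n) := by ring
          rw [this]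
          field_simp
  have hle : ‖f z‖ ≤ 0 := ge_of_tendsto h1 hev
  have : ‖f z‖ = 0 := le_antisymm hle (norm_nonneg _)
  simpa using this

/-- **(C4)** a `T_p`-eigenvalue of a non-zero weight-2 cusp form on `Γ₀(N)`, `p ∤ N`, is neither
`p + 1` nor `-(p + 1)` -/
theorem heckeT_eigenvalue_ne (hp : p.Prime) (hpN : ¬ p ∣ N) (f : CuspForm (Gamma0 N) 2)
    (hf : f ≠ 0) (a : ℂ) (ha : CuspForm.heckeTLin 2 hp hpN f = a • f) :
    a ≠ (p : ℂ) + 1 ∧ a ≠ -((p : ℂ) + 1) := by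
  constructor
  · rintro rfl
    refine hf (eq_zero_of_eq_smul_slash_diag hp f 1 (one_mul 1) fun z => ?_)
    have := eq_smul_slash_of_heckeT_eq hp hpN f 1 (map_one _) (one_mul 1)
      (by rw [one_mul]; exact ha) ∞ z
    rwa [heckeRep_infty] at this
  · rintro rfl
    refine hf (eq_zero_of_eq_smul_slash_diag hp f (-1) (by norm_num) fun z => ?_)
    have := eq_smul_slash_of_heckeT_eq hp hpN f (-1) (by rw [map_neg, map_one]) (by norm_num)
      (by rw [neg_one_mul]; exact ha) ∞ z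
    rwa [heckeRep_infty] at this

end Main

end Fermat.Agent.GB.B10N.HeckeBound
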