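/-
GATE-B / B10' (C4), corollary (helper49): for a normalised eigenform `g` of weight 2 on `Γ₀(N)` and a
prime `p ∤ N`: `a_p(g) ≠ p + 1` and `a_p(g) ≠ -(p + 1)` (`qCoeff` form of
`HeckeBound.heckeT_eigenvalue_ne`, via `GJ.EigSys.heckeTLin_eq_smul`).
-/
import Mathlib
import Fermat.Agent.GB.B10N.HeckeBound
import Fermat.Agent.GJ.J4.EigSys
import Fermat.Prelude.Def_FLTPrelim_ModularRep

set_option autoImplicit false

open CongruenceSubgroup ModularFormClass UpperHalfPlane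

namespace Fermat.Agent.GB.B10N.HeckeBound

/-- **(C4), eigenform form**: `a_p(g) ≠ ±(p + 1)` for a normalised eigenform and `p ∤ N` -/
theorem qCoeff_prime_ne {N : ℕ} [NeZero N] {g : CuspForm (Gamma0 N) 2}
    (hg : g.IsNormalizedEigenform) {p : ℕ} (hp : p.Prime) (hpN : ¬ p ∣ N) :
    qCoeff g p ≠ (p : ℂ) + 1 ∧ qCoeff g p ≠ -((p : ℂ) + 1) :=
  heckeT_eigenvalue_ne hp hpN g hg.ne_zero (qCoeff g p)
    (Fermat.Agent.GJ.EigSys.heckeTLin_eq_smul hg hp hpN)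

/-- the square form used by the `p`-twin of B7: `a_p(g)² ≠ (p + 1)²` -/
theorem qCoeff_prime_sq_ne {N : ℕ} [NeZero N] {g : CuspForm (Gamma0 N) 2}
    (hg : g.IsNormalizedEigenform) {p : ℕ} (hp : p.Prime) (hpN : ¬ p ∣ N) :
    qCoeff g p ^ 2 ≠ ((p : ℂ) + 1) ^ 2 := by
  intro h
  obtain ⟨h1, h2⟩ := qCoeff_prime_ne hg hp hpN
  rcases sq_eq_sq_iff_eq_or_eq_neg.1 h with h3 | h3
  · exact h1 h3
  · exact h2 h3

end Fermat.Agent.GB.B10N.HeckeBound
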