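/-
GATE-B / B10' with a NON-UNIT killer (helper78), file 3: **the algebra end**.

`A` a Noetherian local ring, `ρ : GaloisRepAdic A` ordinary at `p` with cyclotomic determinant,
`a : A` ("`H.π t₀`", the image of an old-killer), `φ : A →+* B` a local homomorphism ("`Tloc → T_Q`")
such that `φ a` is a NONZERODIVISOR of `B`.  If at every level `𝔪ⁿ` and every place `P ∣ p` there is
`W_n ≤ V/𝔪ⁿV` with the connected package and the TWISTED square relation
`ρ(τ) (ρ(τ) (a • u)) - a • u ∈ W_n` for the Frobenius lifts `τ` at `P`, then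

* `smul_zc_sq_sub_one`  : `a * (z(τ)² - 1) = 0` in `A` (`z` the unramified quotient character);
* `isStrictOrdinaryAt_baseChangeAlong_of_nzd` : the PUSHED representation `ρ ⊗_φ B` is strictly
  ordinary at `p` (frozen `IsStrictOrdinaryAt`).

With `GB/B10N/CoreN.exists_package_sqT_level`:

* `isStrictOrdinaryAt_push_of_pack_nzd` : the twin of helper39's `GB/B10/Top.isStrictOrdinaryAt_of_pack`
  with `IsUnit (H.π t₀)` replaced by "`φ (H.π t₀)` is a nonzerodivisor of `T_Q`", conclusion for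
  `pushRep H φ hφ`;
* `strictCond_push'` : the S56-shaped deformation condition for `pushRep H φ hφ` from its strictness
  (variant of `Push.strictCond_push`, binder on the PUSHED representation).
-/
import Fermat.Agent.GB.B10N.CoreN
import Fermat.Agent.GB.New.StrictOfFrob
import Fermat.Agent.GB.Def.StrictOfSq
import Fermat.Agent.GB.B4.Datum.Push
import Fermat.Agent.GS.Old.OrdShapeAdic
import Fermat.Agent.GH.S32.InstAux

set_option autoImplicit false

open IsLocalRing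
open scoped TensorProduct

namespace Fermat.Agent.GB.B10N.StrictN

open Fermat.Agent.GB.New.StrictPkg Fermat.Agent.GB.New.StrictOfLevels
  Fermat.Agent.GB.New.StrictOfFrob
open Fermat.Agent.GS.Alg.Transfer Fermat.Agent.GH.S32

local notation "Qb" => AlgebraicClosure ℚ
local notation "GQ" => (AlgebraicClosure ℚ ≃ₐ[ℚ] AlgebraicClosure ℚ)

/-! ### coordinates -/

section Coord

variable {A : Type} [CommRing A] [IsLocalRing A] (ρ : GaloisRepAdic A)
  (b : Module.Basis (Fin 2) A ρ.V)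

/-- `ρ(g) v - z(g) v ∈ L` when `ρ(g)` stabilises the line `L = A ∙ b 0`. -/
theorem sub_zc_smul_mem {g : GQ} (hg : ρ.ρ g (b 0) ∈ A ∙ b 0) (v : ρ.V) :
    ρ.ρ g v - zc ρ b g • v ∈ A ∙ b 0 := by
  rw [mem_span_iff, map_sub, Finsupp.sub_apply, repr_one_apply ρ b hg, map_smul,
    Finsupp.smul_apply, smul_eq_mul, sub_self]

/-- `(ρ(g)² - 1)(a V) ⊆ L  ⟹  a (z(g)² - 1) = 0`. -/
theorem smul_zc_sq_sub_one {g : GQ} (hg : ρ.ρ g (b 0) ∈ A ∙ b 0) (a : A)
    (h : ∀ v : ρ.V, ρ.ρ g (ρ.ρ g (a • v)) - a • v ∈ A ∙ b 0) :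
    a * (zc ρ b g * zc ρ b g - 1) = 0 := by
  have h1 := (mem_span_iff ρ b _).1 (h (b 1))
  rw [map_sub, Finsupp.sub_apply, repr_one_apply ρ b hg, repr_one_apply ρ b hg, map_smul,
    Finsupp.smul_apply, b.repr_self, Finsupp.single_apply] at h1
  simp only [↓reduceIte, smul_eq_mul, mul_one] at h1
  rw [← h1]
  ring

end Coord

/-! ### levels with the twisted square relation -/

section Levels

variable {A : Type} [CommRing A] [IsLocalRing A] [IsNoetherianRing A]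

/-- per-level `ConnPackage` + twisted `sq` over a set `F` ⟹ `(ρ(τ)² - 1)(a V) ⊆ L` for `τ ∈ F`,
for every submodule `L` containing the inertia increments. -/
theorem sqT_mem_of_levels_set (ρ : GaloisRepAdic A) (P : ValuationSubring Qb) (F : Set GQ) (a : A)
    (hlev : ∀ n : ℕ, ∃ W : AddSubgroup (ρ.V ⧸ ((maximalIdeal A ^ n) • (⊤ : Submodule A ρ.V))),
      ConnPackage (↑(P.inertiaSubgroupIn ℚ) : Set GQ) (↑(P.decompositionSubgroup ℚ) : Set GQ)
        (fun (σ : GQ) (w : ρ.V ⧸ ((maximalIdeal A ^ n) • (⊤ : Submodule A ρ.V))) =>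
          ρ.levelAction (maximalIdeal A ^ n) σ w) W ∧
      ∀ τ ∈ F, ∀ u : ρ.V ⧸ ((maximalIdeal A ^ n) • (⊤ : Submodule A ρ.V)),
        ρ.levelAction (maximalIdeal A ^ n) τ
          (ρ.levelAction (maximalIdeal A ^ n) τ (a • u)) - a • u ∈ W)
    (L : Submodule A ρ.V)
    (hI : ∀ σ ∈ P.inertiaSubgroupIn ℚ, ∀ v : ρ.V, ρ.ρ σ v - v ∈ L)
    {τ : GQ} (hτ : τ ∈ F) (v : ρ.V) :
    ρ.ρ τ (ρ.ρ τ (a • v)) - a • v ∈ L := by
  refine mem_of_forall_mem_sup_pow L _ fun n => ?_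
  obtain ⟨W, hW, hsq⟩ := hlev n
  have hπact : ∀ (g : GQ) (u : ρ.V),
      ρ.levelAction (maximalIdeal A ^ n) g
        (((maximalIdeal A ^ n) • (⊤ : Submodule A ρ.V)).mkQ u) =
      ((maximalIdeal A ^ n) • (⊤ : Submodule A ρ.V)).mkQ (ρ.ρ g u) :=
    fun g u => rfl
  have hWL : W ≤ (L.map ((maximalIdeal A ^ n) • (⊤ : Submodule A ρ.V)).mkQ).toAddSubgroup := by
    rw [connPackage_eq_incrSub hW, incrSub, AddSubgroup.closure_le]
    rintro _ ⟨g, hg, u, rfl⟩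
    obtain ⟨u', rfl⟩ := ((maximalIdeal A ^ n) • (⊤ : Submodule A ρ.V)).mkQ_surjective u
    show ρ.levelAction (maximalIdeal A ^ n) g
        (((maximalIdeal A ^ n) • (⊤ : Submodule A ρ.V)).mkQ u') -
      ((maximalIdeal A ^ n) • (⊤ : Submodule A ρ.V)).mkQ u' ∈
        L.map ((maximalIdeal A ^ n) • (⊤ : Submodule A ρ.V)).mkQ
    rw [hπact, ← map_sub]
    exact Submodule.mem_map_of_mem (hI g hg u')
  have h1 : ρ.levelAction (maximalIdeal A ^ n) τ (ρ.levelAction (maximalIdeal A ^ n) τ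
        (a • ((maximalIdeal A ^ n) • (⊤ : Submodule A ρ.V)).mkQ v)) -
      a • ((maximalIdeal A ^ n) • (⊤ : Submodule A ρ.V)).mkQ v ∈
        L.map ((maximalIdeal A ^ n) • (⊤ : Submodule A ρ.V)).mkQ :=
    hWL (hsq τ hτ _)
  rw [← map_smul, hπact, hπact, ← map_sub] at h1
  obtain ⟨l, hl, hlv⟩ := h1
  have h2 : ρ.ρ τ (ρ.ρ τ (a • v)) - a • v - l ∈
      (maximalIdeal A ^ n) • (⊤ : Submodule A ρ.V) := by
    rw [← Submodule.Quotient.mk_eq_zero, Submodule.Quotient.mk_sub]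
    show ((maximalIdeal A ^ n) • (⊤ : Submodule A ρ.V)).mkQ (ρ.ρ τ (ρ.ρ τ (a • v)) - a • v) -
      ((maximalIdeal A ^ n) • (⊤ : Submodule A ρ.V)).mkQ l = 0
    rw [hlv, sub_self]
  have e : ρ.ρ τ (ρ.ρ τ (a • v)) - a • v = l + (ρ.ρ τ (ρ.ρ τ (a • v)) - a • v - l) := by abel
  rw [e]
  exact Submodule.add_mem_sup hl h2

end Levels

/-! ### the push-forward -/

section Core

variable {A : Type} [CommRing A] {B : Type} [CommRing B]

/-- quotient scalar `z` with `φ(z)² = 1` ⟹ `(f_B² - 1)(B ⊗ V) ⊆ B ∙ (1 ⊗ b₀)`. -/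
theorem baseChange_sq_sub_mem [Algebra A B] {V : Type} [AddCommGroup V] [Module A V]
    (b₀ : V) (f : Module.End A V) (z : A)
    (hf : ∀ v : V, f v - z • v ∈ Submodule.span A {b₀})
    (hst : f b₀ ∈ Submodule.span A {b₀})
    (hz : algebraMap A B z * algebraMap A B z = 1) (w : B ⊗[A] V) :
    f.baseChange B (f.baseChange B w) - w ∈ Submodule.span B {(1 : B) ⊗ₜ[A] b₀} := by
  set L' : Submodule B (B ⊗[A] V) := Submodule.span B {(1 : B) ⊗ₜ[A] b₀} with hL'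
  set z' : B := algebraMap A B z with hz'
  have h1 : ∀ w : B ⊗[A] V, f.baseChange B w - z' • w ∈ L' := fun w =>
    Fermat.Agent.GP.Tan.baseChangeAlong_baseChange_sub_smul_mem_span b₀ f z hf w
  have hstab : ∀ w ∈ L', f.baseChange B w ∈ L' := by
    intro w hw
    obtain ⟨c, rfl⟩ := Submodule.mem_span_singleton.1 hw
    rw [map_smul, LinearMap.baseChange_tmul]
    exact Submodule.smul_mem _ _
      (Fermat.Agent.GP.Tan.baseChangeAlong_tmul_mem_span b₀ hst 1)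
  have e : f.baseChange B (f.baseChange B w) - w =
      f.baseChange B (f.baseChange B w - z' • w) + z' • (f.baseChange B w - z' • w) +
        (z' * z' - 1) • w := by
    rw [map_sub, map_smul]
    module
  rw [e, hz, sub_self, zero_smul, add_zero]
  exact L'.add_mem (hstab _ (h1 w)) (L'.smul_mem _ (h1 w))

/-- **push-forward core**, explicit tensor-product form: the ordinary line `A ∙ b 0`, pushed to
`B ∙ (b.baseChange B) 0`, stays ordinary, and if `τ` acts on `V / L` through a scalar `z` with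
`φ(z)² = 1` then `(τ_B² - 1)(B ⊗ V)` lies in the pushed line. -/
theorem push_core [Algebra A B] {V : Type} [AddCommGroup V] [Module A V] {G : Type}
    (r : G → Module.End A V) (D I : Set G) (b : Module.Basis (Fin 2) A V)
    (hD : ∀ σ ∈ D, ∀ v ∈ Submodule.span A {b 0}, r σ v ∈ Submodule.span A {b 0})
    (hI : ∀ σ ∈ I, ∀ v : V, r σ v - v ∈ Submodule.span A {b 0})
    (τ : G) (hτ : τ ∈ D) (z : A) (hz : ∀ v : V, r τ v - z • v ∈ Submodule.span A {b 0})
    (hz2 : algebraMap A B z * algebraMap A B z = 1) :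
    (∀ σ ∈ D, ∀ w ∈ Submodule.span B {(b.baseChange B) 0},
      (r σ).baseChange B w ∈ Submodule.span B {(b.baseChange B) 0}) ∧
    (∀ σ ∈ I, ∀ w : B ⊗[A] V,
      (r σ).baseChange B w - w ∈ Submodule.span B {(b.baseChange B) 0}) ∧
    (∀ w : B ⊗[A] V, (r τ).baseChange B ((r τ).baseChange B w) - w ∈
      Submodule.span B {(b.baseChange B) 0}) := by
  have hb0 : b 0 ∈ Submodule.span A {b 0} := Submodule.mem_span_singleton_self _
  rw [Module.Basis.baseChange_apply]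
  refine ⟨fun σ hσ w hw => ?_, fun σ hσ w => ?_, fun w => ?_⟩
  · obtain ⟨c, rfl⟩ := Submodule.mem_span_singleton.1 hw
    rw [map_smul, LinearMap.baseChange_tmul]
    exact Submodule.smul_mem _ _
      (Fermat.Agent.GP.Tan.baseChangeAlong_tmul_mem_span (b 0) (hD σ hσ (b 0) hb0) 1)
  · have h1 := Fermat.Agent.GP.Tan.baseChangeAlong_baseChange_sub_smul_mem_span (B := B) (b 0)
      (r σ) 1 (fun v => by rw [one_smul]; exact hI σ hσ v) w
    rwa [map_one, one_smul] at h1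
  · exact baseChange_sq_sub_mem (b 0) (r τ) z hz (hD τ hτ (b 0) hb0) hz2 w

end Core

section Push

variable {A : Type} [CommRing A] [IsLocalRing A] [IsNoetherianRing A]
  {B : Type} [CommRing B] [IsLocalRing B] [IsNoetherianRing B]

/-- **the algebra end**: ordinary + cyclotomic determinant + a set `𝔞 ⊆ A` of "killers" whose
image in `B` has ZERO ANNIHILATOR + for every `a ∈ 𝔞` per-level (connected package + twisted square
relation at Frobenius lifts, twisted by `a`) ⟹ the pushed representation `ρ ⊗_φ B` is strictly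
ordinary at `p`.  (`𝔞 = {a}` with `φ a` a nonzerodivisor; or per-point killers when `B` is reduced
with jointly injective points.) -/
theorem isStrictOrdinaryAt_baseChangeAlong_of_ann (ρ : GaloisRepAdic A) (φ : A →+* B)
    (hφ : IsLocalHom φ) {p : ℕ} (hp : p.Prime)
    (hdet : ρ.DetIsCyclotomic p) (hord : ρ.IsOrdinaryAt p)
    (𝔞 : Set A) (hann : ∀ y : B, (∀ a ∈ 𝔞, φ a * y = 0) → y = 0)
    (hlev : ∀ a ∈ 𝔞, ∀ P : ValuationSubring Qb, P.LiesOverPrime p → ∀ n : ℕ,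
      ∃ W : AddSubgroup (ρ.V ⧸ ((maximalIdeal A ^ n) • (⊤ : Submodule A ρ.V))),
        ConnPackage (↑(P.inertiaSubgroupIn ℚ) : Set GQ) (↑(P.decompositionSubgroup ℚ) : Set GQ)
          (fun (σ : GQ) (w : ρ.V ⧸ ((maximalIdeal A ^ n) • (⊤ : Submodule A ρ.V))) =>
            ρ.levelAction (maximalIdeal A ^ n) σ w) W ∧
        ∀ τ ∈ {τ : GQ | P.IsFrobeniusAt τ p},
          ∀ u : ρ.V ⧸ ((maximalIdeal A ^ n) • (⊤ : Submodule A ρ.V)),
            ρ.levelAction (maximalIdeal A ^ n) τ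
              (ρ.levelAction (maximalIdeal A ^ n) τ (a • u)) - a • u ∈ W) :
    (ρ.baseChangeAlong φ hφ).IsStrictOrdinaryAt p := by
  let _ : Algebra A B := φ.toAlgebra
  refine Fermat.Agent.GB.Def.StrictOfSq.isStrictOrdinaryAt_of_sq_sub_mem
    (Fermat.Agent.GP.Tan.detIsCyclotomic_baseChangeAlong φ hφ hdet) fun P hP => ?_
  obtain ⟨L, ⟨b, rfl⟩, hD, hI⟩ := hord P hP
  have hb0 : b 0 ∈ A ∙ b 0 := Submodule.mem_span_singleton_self _
  have hst : ∀ g ∈ P.decompositionSubgroup ℚ, ρ.ρ g (b 0) ∈ A ∙ b 0 :=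
    fun g hg => hD g hg _ hb0
  -- one Frobenius lift
  obtain ⟨φ₀, hφ₀⟩ := Fermat.Agent.Common_helper32.exists_isFrobeniusAt_of_liesOver P p hp hP
  have hφ₀D : φ₀ ∈ P.decompositionSubgroup ℚ := hφ₀.mem_decompositionSubgroup
  have haz : ∀ a ∈ 𝔞, a * (zc ρ b φ₀ * zc ρ b φ₀ - 1) = 0 := fun a ha =>
    smul_zc_sq_sub_one ρ b (hst φ₀ hφ₀D) a fun v =>
      sqT_mem_of_levels_set ρ P {τ : GQ | P.IsFrobeniusAt τ p} a (hlev a ha P hP) (A ∙ b 0) hI
        (show φ₀ ∈ {τ : GQ | P.IsFrobeniusAt τ p} from hφ₀) v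
  have hz' : algebraMap A B (zc ρ b φ₀) * algebraMap A B (zc ρ b φ₀) = 1 := by
    refine sub_eq_zero.1 (hann _ fun a ha => ?_)
    have h1 := congrArg φ (haz a ha)
    rw [map_mul, map_sub, map_mul, map_one, map_zero] at h1
    exact h1
  obtain ⟨hD', hI', hsq'⟩ := push_core (B := B) (fun σ => ρ.ρ σ)
    (↑(P.decompositionSubgroup ℚ) : Set GQ) (↑(P.inertiaSubgroupIn ℚ) : Set GQ) b hD hI φ₀ hφ₀D
    (zc ρ b φ₀) (sub_zc_smul_mem ρ b (hst φ₀ hφ₀D)) hz'
  refine ⟨Submodule.span B {(b.baseChange B) 0}, ⟨b.baseChange B, rfl⟩, hD', hI',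
    fun σ hσ v => ?_⟩
  exact sq_mem_of_frob (ρ.baseChangeAlong φ hφ) hp P hP (b.baseChange B) hD' hI' hφ₀ hsq' hσ v

/-- the case of ONE killer `a` with `φ a` a nonzerodivisor. -/
theorem isStrictOrdinaryAt_baseChangeAlong_of_nzd (ρ : GaloisRepAdic A) (φ : A →+* B)
    (hφ : IsLocalHom φ) {p : ℕ} (hp : p.Prime)
    (hdet : ρ.DetIsCyclotomic p) (hord : ρ.IsOrdinaryAt p)
    (a : A) (hnzd : ∀ y : B, φ a * y = 0 → y = 0)
    (hlev : ∀ P : ValuationSubring Qb, P.LiesOverPrime p → ∀ n : ℕ,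
      ∃ W : AddSubgroup (ρ.V ⧸ ((maximalIdeal A ^ n) • (⊤ : Submodule A ρ.V))),
        ConnPackage (↑(P.inertiaSubgroupIn ℚ) : Set GQ) (↑(P.decompositionSubgroup ℚ) : Set GQ)
          (fun (σ : GQ) (w : ρ.V ⧸ ((maximalIdeal A ^ n) • (⊤ : Submodule A ρ.V))) =>
            ρ.levelAction (maximalIdeal A ^ n) σ w) W ∧
        ∀ τ ∈ {τ : GQ | P.IsFrobeniusAt τ p},
          ∀ u : ρ.V ⧸ ((maximalIdeal A ^ n) • (⊤ : Submodule A ρ.V)),
            ρ.levelAction (maximalIdeal A ^ n) τ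
              (ρ.levelAction (maximalIdeal A ^ n) τ (a • u)) - a • u ∈ W) :
    (ρ.baseChangeAlong φ hφ).IsStrictOrdinaryAt p :=
  isStrictOrdinaryAt_baseChangeAlong_of_ann ρ φ hφ hp hdet hord {a}
    (fun y hy => hnzd y (hy a rfl)) (fun a' ha' => by rw [Set.mem_singleton_iff.1 ha']; exact hlev)

end Push

/-! ### the Hecke–Galois datum -/

section Datum

open CuspForm Fermat.Agent.GJ.Tate Fermat.Agent.GB.B4.Datum.Push

variable {p : ℕ} {N : ℕ} [NeZero N] {S : Finset ℕ}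
  {𝒪 : Type} [CommRing 𝒪] [IsDomain 𝒪] [IsDiscreteValuationRing 𝒪]
  [IsAdicComplete (IsLocalRing.maximalIdeal 𝒪) 𝒪]
  {θ : CuspForm.heckeAlgebra N 2 (↑S : Set ℕ) →+* IsLocalRing.ResidueField 𝒪}
  {T : Type} [CommRing T] [IsLocalRing T] [IsNoetherianRing T]
  [IsAdicComplete (IsLocalRing.maximalIdeal T) T] [Algebra 𝒪 T] [IsLocalHom (algebraMap 𝒪 T)]
  [Module.Finite 𝒪 T] [Module.Free 𝒪 T]
  {TQ : Type} [CommRing TQ] [IsLocalRing TQ] [IsNoetherianRing TQ]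

/-- **B10' for the pushed representation, hypothesis form, with a family of killers.**
`𝔞` a set of Hecke operators such that the image of `H.π 𝔞` in `T_Q` has zero annihilator, and
every `t₀ ∈ 𝔞` satisfies the twisted square relation `τ (τ (t₀ x)) - t₀ x ∈ W_n` on the Kummer
groups (`W_n` with the connected package; = N1 + N2 + `ConnM0` for an old-killer `t₀`): then
`pushRep H φ hφ` is strictly ordinary at `p`. -/
theorem isStrictOrdinaryAt_push_of_pack_ann (D : KumLevelData N S p) (hm : D.Comm)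
    [Finite (IsLocalRing.ResidueField 𝒪)] [CharZero 𝒪]
    (hp : p.Prime) (hp2 : p ≠ 2) (hp𝒪 : (p : 𝒪) ∈ maximalIdeal 𝒪)
    (hpS : p ∈ S) (hNS : ∀ q : ℕ, q.Prime → q ∣ N → q ∈ S)
    (H : CuspForm.HeckeGaloisRepDatum N (↑S : Set ℕ) 𝒪 θ T)
    (hdet : H.ρ.DetIsCyclotomic p) (hord : H.ρ.IsOrdinaryAt p)
    (φ : T →+* TQ) (hφ : IsLocalHom φ)
    (𝔞 : Set (heckeAlgebra N 2 (↑S : Set ℕ)))
    (hann : ∀ y : TQ, (∀ t₀ ∈ 𝔞, φ (H.π t₀) * y = 0) → y = 0)
    (hpack : ∀ t₀ ∈ 𝔞, ∀ P : ValuationSubring Qb, P.LiesOverPrime p → ∀ n : ℕ,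
      ∃ W : AddSubgroup (D.K n),
        ConnPackage (↑(P.inertiaSubgroupIn ℚ) : Set GQ) (↑(P.decompositionSubgroup ℚ) : Set GQ)
          (fun (σ : GQ) (x : D.K n) => D.gal n σ x) W ∧
        ∀ τ ∈ {τ : GQ | P.IsFrobeniusAt τ p}, ∀ x : D.K n,
          D.gal n τ (D.gal n τ (D.heckeHom n t₀ x)) - D.heckeHom n t₀ x ∈ W) :
    (pushRep H φ hφ).IsStrictOrdinaryAt p := by
  have hfinres : Finite (IsLocalRing.ResidueField T) :=
    Fermat.Agent.GH.S32.finite_residueField_of_moduleFinite 𝒪 T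
  refine isStrictOrdinaryAt_baseChangeAlong_of_ann H.ρ φ hφ hp hdet hord (H.π '' 𝔞)
    (fun y hy => hann y fun t₀ ht₀ => hy _ ⟨t₀, ht₀, rfl⟩) ?_
  rintro _ ⟨t₀, ht₀, rfl⟩ P hP n
  have : Finite (T ⧸ maximalIdeal T ^ n) :=
    Fermat.Agent.GS.Old.OrdShapeAdic.finite_quotient_maximalIdeal_pow_of_finite_residueField n
  exact Fermat.Agent.GB.B10N.CoreN.exists_package_sqT_level D hm hp hp2 hp𝒪 hpS hNS H
    (maximalIdeal T ^ n) t₀
    (fun σ hσ => by
      have hσ' : σ ∈ P.inertiaSubgroupIn ℚ := hσ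
      unfold ValuationSubring.inertiaSubgroupIn at hσ'
      rw [Subgroup.mem_map] at hσ'
      obtain ⟨i', _, rfl⟩ := hσ'
      exact i'.2)
    (fun σ hσ => (P.decompositionSubgroup ℚ).inv_mem hσ) (hpack t₀ ht₀ P hP)

/-- **B10' for the pushed representation, hypothesis form, ONE killer** `t₀` with `φ (H.π t₀)` a
nonzerodivisor of `T_Q` (twin of helper39's `GB/B10/Top.isStrictOrdinaryAt_of_pack`, where
`H.π t₀` is a unit). -/
theorem isStrictOrdinaryAt_push_of_pack_nzd (D : KumLevelData N S p) (hm : D.Comm)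
    [Finite (IsLocalRing.ResidueField 𝒪)] [CharZero 𝒪]
    (hp : p.Prime) (hp2 : p ≠ 2) (hp𝒪 : (p : 𝒪) ∈ maximalIdeal 𝒪)
    (hpS : p ∈ S) (hNS : ∀ q : ℕ, q.Prime → q ∣ N → q ∈ S)
    (H : CuspForm.HeckeGaloisRepDatum N (↑S : Set ℕ) 𝒪 θ T)
    (hdet : H.ρ.DetIsCyclotomic p) (hord : H.ρ.IsOrdinaryAt p)
    (φ : T →+* TQ) (hφ : IsLocalHom φ)
    (t₀ : heckeAlgebra N 2 (↑S : Set ℕ)) (hnzd : ∀ y : TQ, φ (H.π t₀) * y = 0 → y = 0)
    (hpack : ∀ P : ValuationSubring Qb, P.LiesOverPrime p → ∀ n : ℕ,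
      ∃ W : AddSubgroup (D.K n),
        ConnPackage (↑(P.inertiaSubgroupIn ℚ) : Set GQ) (↑(P.decompositionSubgroup ℚ) : Set GQ)
          (fun (σ : GQ) (x : D.K n) => D.gal n σ x) W ∧
        ∀ τ ∈ {τ : GQ | P.IsFrobeniusAt τ p}, ∀ x : D.K n,
          D.gal n τ (D.gal n τ (D.heckeHom n t₀ x)) - D.heckeHom n t₀ x ∈ W) :
    (pushRep H φ hφ).IsStrictOrdinaryAt p :=
  isStrictOrdinaryAt_push_of_pack_ann D hm hp hp2 hp𝒪 hpS hNS H hdet hord φ hφ {t₀}
    (fun y hy => hnzd y (hy t₀ rfl))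
    (fun t ht => by rw [Set.mem_singleton_iff.1 ht]; exact hpack)

variable [Algebra 𝒪 TQ]

omit [IsNoetherianRing TQ] in
/-- **`𝒟SO ρ_Q`** (variant of `Push.strictCond_push`): the strict-ordinary S56-shaped condition
for the pushed representation, from strict ordinarity OF THE PUSHED REPRESENTATION (binder; this is
what both the L-route and the N-route of B10' output). -/
theorem strictCond_push' [Finite (IsLocalRing.ResidueField 𝒪)] [CharZero 𝒪] (hp : p.Prime)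
    (hp𝒪 : (p : 𝒪) ∈ IsLocalRing.maximalIdeal 𝒪) (hpS : p ∈ S)
    (hNS : ∀ q : ℕ, q.Prime → q ∣ N → q ∈ S)
    (H : HeckeGaloisRepDatum N (↑S : Set ℕ) 𝒪 θ T) (φ : T →+* TQ) (hφ : IsLocalHom φ)
    (hstrict : (pushRep H φ hφ).IsStrictOrdinaryAt p) (Tram Smin : Finset ℕ) (hST : S ⊆ Tram)
    (hSmin : ∀ q ∈ Smin, q.Prime → q ≠ p → q ∣ N ∧ ¬ q ^ 2 ∣ N) :
    GaloisRep.strictOrdinaryCondition 𝒪 p Tram (pushRep H φ hφ) ∧
      ∀ q ∈ Smin, q.Prime → q ≠ p → (pushRep H φ hφ).IsUnipotentOnInertiaAt q :=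
  ⟨⟨detIsCyclotomic_push hp hp𝒪 hpS H φ hφ, hstrict,
      fun q hq hqT => isUnramifiedAt_push hp hp𝒪 hpS hNS H φ hφ q hq (fun h => hqT (hST h))⟩,
    fun q hqm hq hqp => isUnipotentOnInertiaAt_push hp hp𝒪 hpS hNS H φ hφ q hq hqp
      (hSmin q hqm hq hqp).1 (hSmin q hqm hq hqp).2⟩

end Datum

end Fermat.Agent.GB.B10N.StrictN
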